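/-
TR, E-side (E-PEU), brick 1: the unit coordinate on the kernel of reduction of
`y² = x³ + a x² + b x`.

For `β² = a` put `u(P) = (1 - β z(P)) / (1 + β z(P))`, `z = x / y`.  When `b = 0` this is the
character of the nodal cubic to `𝔾ₘ`; in general, on the kernel of reduction `E₁`,

* `u_add`   : `u(P + Q) - u(P) u(Q) ∈ b · z(P) · z(Q) · A`;
* `u_nsmul` : `u(n • P) - u(P) ^ n ∈ b · z(P)² · A`.
-/
import Fermat.Agent.S05.E1

set_option autoImplicit false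

namespace Fermat.Agent.TR.FreyPeu

open Fermat.Agent.S05 Fermat.Agent.S05.E1

variable {K : Type*} [Field K]

section Abs

variable (A : ValuationSubring K)

theorem mem_of_sq_mem {β a : K} (hβ : β ^ 2 = a) (ha : a ∈ A) : β ∈ A := by
  rw [← A.valuation_le_one_iff] at ha ⊢
  rw [← hβ, map_pow] at ha
  by_contra h
  exact absurd ha (not_le.mpr (one_lt_pow₀ (not_le.mp h) two_ne_zero))

theorem val_one_sub_small {t : K} (ht : A.valuation t < 1) : A.valuation (1 - t) = 1 :=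
  A.valuation.map_one_sub_of_lt ht

theorem ne_zero_of_val_eq_one {t : K} (ht : A.valuation t = 1) : t ≠ 0 := by
  rintro rfl
  rw [map_zero] at ht
  exact zero_ne_one ht

/-- Abstract form of the multiplicativity of the unit coordinate, in the coordinates
`z = x / y`, `s = 1 / x` (same hypotheses as `E1.abs_add`). -/
theorem abs_umul {a b β z1 z2 s1 s2 x3 y3 : K} (ha : a ∈ A) (hb : b ∈ A) (hβ : β ^ 2 = a)
    (hz1 : A.valuation z1 < 1) (hz2 : A.valuation z2 < 1)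
    (hs1 : A.valuation s1 < 1) (hs2 : A.valuation s2 < 1)
    (hg1 : s1 = z1 ^ 2 * (1 + a * s1 + b * s1 ^ 2))
    (hg2 : s2 = z2 ^ 2 * (1 + a * s2 + b * s2 ^ 2))
    (hy3 : y3 ≠ 0)
    (hC : x3 * (1 + b * s1 * s2 + z1 * z2 * (a + 2 * b * (s1 + s2) + a * b * s1 * s2)) =
      y3 * (z1 + z2) * (1 - b * s1 * s2)) :
    ∃ c ∈ A, (1 - β * (x3 / y3)) / (1 + β * (x3 / y3)) -
        (1 - β * z1) / (1 + β * z1) * ((1 - β * z2) / (1 + β * z2)) = b * z1 * z2 * c := by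
  have hβA : β ∈ A := mem_of_sq_mem A hβ ha
  have mz1 := mem_of_val_lt_one A hz1
  have mz2 := mem_of_val_lt_one A hz2
  have ms1 := mem_of_val_lt_one A hs1
  have ms2 := mem_of_val_lt_one A hs2
  have h2 : (2 : K) ∈ A := by
    have : (2 : K) = 1 + 1 := by norm_num
    rw [this]; exact add_mem (one_mem A) (one_mem A)
  -- the auxiliary quantities
  obtain ⟨g1, hg1d⟩ : ∃ g1, g1 = 1 + a * s1 + b * s1 ^ 2 := ⟨_, rfl⟩
  obtain ⟨g2, hg2d⟩ : ∃ g2, g2 = 1 + a * s2 + b * s2 ^ 2 := ⟨_, rfl⟩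
  have mg1 : g1 ∈ A := by
    rw [hg1d]
    exact add_mem (add_mem (one_mem A) (mul_mem ha ms1)) (mul_mem hb (pow_mem ms1 2))
  have mg2 : g2 ∈ A := by
    rw [hg2d]
    exact add_mem (add_mem (one_mem A) (mul_mem ha ms2)) (mul_mem hb (pow_mem ms2 2))
  have hs1' : s1 = z1 ^ 2 * g1 := by rw [hg1d]; exact hg1
  have hs2' : s2 = z2 ^ 2 * g2 := by rw [hg2d]; exact hg2
  have hs12 : s1 * s2 = z1 ^ 2 * z2 ^ 2 * (g1 * g2) := by
    rw [hs1', hs2']
    rw [← hs1', ← hs2']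
    linear_combination s2 * hs1' + z1 ^ 2 * g1 * hs2'
  have hsum : s1 + s2 = z1 ^ 2 * g1 + z2 ^ 2 * g2 := by
    linear_combination hs1' + hs2'
  obtain ⟨z3, hz3d⟩ : ∃ z3, z3 = x3 / y3 := ⟨_, rfl⟩
  obtain ⟨U, hUd⟩ : ∃ U, U = 1 + b * s1 * s2 +
    z1 * z2 * (a + 2 * b * (s1 + s2) + a * b * s1 * s2) := ⟨_, rfl⟩
  have hz3 : z3 * U = (z1 + z2) * (1 - b * s1 * s2) := by
    rw [hz3d, hUd, div_mul_eq_mul_div, div_eq_iff hy3]
    linear_combination hC
  obtain ⟨p1, hp1d⟩ : ∃ p1, p1 = 1 + β * z1 := ⟨_, rfl⟩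
  obtain ⟨p2, hp2d⟩ : ∃ p2, p2 = 1 + β * z2 := ⟨_, rfl⟩
  obtain ⟨m1, hm1d⟩ : ∃ m1, m1 = 1 - β * z1 := ⟨_, rfl⟩
  obtain ⟨m2, hm2d⟩ : ∃ m2, m2 = 1 - β * z2 := ⟨_, rfl⟩
  have hβz1 : A.valuation (β * z1) < 1 := val_mul_lt_one_of_mem A hβA hz1
  have hβz2 : A.valuation (β * z2) < 1 := val_mul_lt_one_of_mem A hβA hz2
  have vp1 : A.valuation p1 = 1 := by rw [hp1d]; exact val_one_add_small A hβz1
  have vp2 : A.valuation p2 = 1 := by rw [hp2d]; exact val_one_add_small A hβz2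
  have mp1 : p1 ∈ A := (A.valuation_le_one_iff _).mp vp1.le
  have mp2 : p2 ∈ A := (A.valuation_le_one_iff _).mp vp2.le
  have mm1 : m1 ∈ A := by rw [hm1d]; exact sub_mem (one_mem A) (mul_mem hβA mz1)
  have mm2 : m2 ∈ A := by rw [hm2d]; exact sub_mem (one_mem A) (mul_mem hβA mz2)
  obtain ⟨em, hemd⟩ : ∃ em, em = z1 * z2 * (g1 * g2) * (p1 * p2) +
    2 * (z1 ^ 2 * g1 + z2 ^ 2 * g2) := ⟨_, rfl⟩
  obtain ⟨ep, hepd⟩ : ∃ ep, ep = z1 * z2 * (g1 * g2) * (m1 * m2) +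
    2 * (z1 ^ 2 * g1 + z2 ^ 2 * g2) := ⟨_, rfl⟩
  have mem : em ∈ A := by
    rw [hemd]
    exact add_mem (mul_mem (mul_mem (mul_mem mz1 mz2) (mul_mem mg1 mg2)) (mul_mem mp1 mp2))
      (mul_mem h2 (add_mem (mul_mem (pow_mem mz1 2) mg1) (mul_mem (pow_mem mz2 2) mg2)))
  have mep : ep ∈ A := by
    rw [hepd]
    exact add_mem (mul_mem (mul_mem (mul_mem mz1 mz2) (mul_mem mg1 mg2)) (mul_mem mm1 mm2))
      (mul_mem h2 (add_mem (mul_mem (pow_mem mz1 2) mg1) (mul_mem (pow_mem mz2 2) mg2)))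
  -- the two key identities
  have Im : (1 - β * z3) * U = m1 * m2 + b * z1 * z2 * em := by
    rw [hemd, hm1d, hm2d, hp1d, hp2d, hUd]
    rw [hUd] at hz3
    linear_combination (-β) * hz3 - z1 * z2 * (1 + b * s1 * s2) * hβ
      + b * (1 + β * z1) * (1 + β * z2) * hs12 + 2 * b * z1 * z2 * hsum
  have Ip : (1 + β * z3) * U = p1 * p2 + b * z1 * z2 * ep := by
    rw [hepd, hm1d, hm2d, hp1d, hp2d, hUd]
    rw [hUd] at hz3
    linear_combination β * hz3 - z1 * z2 * (1 + b * s1 * s2) * hβ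
      + b * (1 - β * z1) * (1 - β * z2) * hs12 + 2 * b * z1 * z2 * hsum
  -- units
  have vD : A.valuation (p1 * p2 + b * z1 * z2 * ep) = 1 := by
    have hsm : A.valuation (b * z1 * z2 * ep) < 1 := by
      have e : b * z1 * z2 * ep = (b * ep * z2) * z1 := by ring
      rw [e]
      exact val_mul_lt_one_of_mem A (mul_mem (mul_mem hb mep) mz2) hz1
    have h1 : A.valuation (p1 * p2) = 1 := by rw [map_mul, vp1, vp2, one_mul]
    rw [A.valuation.map_add_eq_of_lt_left (by rw [h1]; exact hsm), h1]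
  have hD0 : p1 * p2 + b * z1 * z2 * ep ≠ 0 := ne_zero_of_val_eq_one A vD
  have hp10 : p1 ≠ 0 := ne_zero_of_val_eq_one A vp1
  have hp20 : p2 ≠ 0 := ne_zero_of_val_eq_one A vp2
  have hU0 : U ≠ 0 := by
    rintro rfl
    rw [mul_zero] at Ip
    exact hD0 Ip.symm
  have h30 : 1 + β * z3 ≠ 0 := by
    intro h
    rw [h, zero_mul] at Ip
    exact hD0 Ip.symm
  refine ⟨(em * (p1 * p2) - ep * (m1 * m2)) / ((p1 * p2 + b * z1 * z2 * ep) * (p1 * p2)), ?_, ?_⟩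
  · rw [← A.valuation_le_one_iff, map_div₀, map_mul, vD, map_mul, vp1, vp2, one_mul, one_mul,
      div_one, A.valuation_le_one_iff]
    exact sub_mem (mul_mem mem (mul_mem mp1 mp2)) (mul_mem mep (mul_mem mm1 mm2))
  · have e3 : (1 - β * z3) / (1 + β * z3) =
        (m1 * m2 + b * z1 * z2 * em) / (p1 * p2 + b * z1 * z2 * ep) := by
      rw [div_eq_div_iff h30 hD0, ← Im, ← Ip]
      ring
    rw [← hz3d, ← hp1d, ← hp2d, ← hm1d, ← hm2d, e3]
    field_simp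
    ring

/-- The multiplicativity of the unit coordinate in `(x, y)`-coordinates (same hypotheses as
`E1.ker_add_core`). -/
theorem ker_umul_core {x1 y1 x2 y2 x3 y3 a b β : K} (ha : a ∈ A) (hb : b ∈ A) (hβ : β ^ 2 = a)
    (e1 : y1 ^ 2 = x1 ^ 3 + a * x1 ^ 2 + b * x1) (e2 : y2 ^ 2 = x2 ^ 3 + a * x2 ^ 2 + b * x2)
    (hx1 : x1 ∉ A) (hx2 : x2 ∉ A)
    (hB : x3 * (y1 * x2 + y2 * x1) ^ 2 = x1 * x2 * (x1 * x2 - b) ^ 2)
    (hC : x3 * (x1 * x2 * y1 * y2 + b * y1 * y2 +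
        x1 * x2 * (a * x1 * x2 + 2 * b * (x1 + x2) + a * b)) =
      y3 * (x1 * y2 + x2 * y1) * (x1 * x2 - b)) :
    ∃ c ∈ A, (1 - β * (x3 / y3)) / (1 + β * (x3 / y3)) -
        (1 - β * (x1 / y1)) / (1 + β * (x1 / y1)) *
          ((1 - β * (x2 / y2)) / (1 + β * (x2 / y2))) = b * (x1 / y1) * (x2 / y2) * c := by
  obtain ⟨hx10, hy10, hs1, hz1, hid1⟩ := ker_basic A ha hb e1 hx1
  obtain ⟨hx20, hy20, hs2, hz2, hid2⟩ := ker_basic A ha hb e2 hx2
  obtain ⟨-, hy30, -⟩ := ker_add_core A ha hb e1 e2 hx1 hx2 hB hC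
  refine abs_umul A ha hb hβ hz1 hz2 hs1 hs2 hid1 hid2 hy30 ?_
  field_simp
  linear_combination hC

end Abs

section Points

open WeierstrassCurve WeierstrassCurve.Affine

variable {W : Affine K} (A : ValuationSubring K)

/-- The unit coordinate `u = (1 - β z) / (1 + β z)` (with `u(O) = 1`). -/
noncomputable def uCoord (β : K) (P : W.Point) : K := (1 - β * zCoord P) / (1 + β * zCoord P)

theorem uCoord_def (β : K) (P : W.Point) :
    uCoord β P = (1 - β * zCoord P) / (1 + β * zCoord P) := rfl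

@[simp] theorem uCoord_zero (β : K) : uCoord β (0 : W.Point) = 1 := by
  simp [uCoord]

/-- On the kernel of reduction the unit coordinate is a unit, and so are `1 ± β z`. -/
theorem uCoord_units (h₁ : W.a₁ = 0) (h₃ : W.a₃ = 0) (h₆ : W.a₆ = 0)
    (h₂ : W.a₂ ∈ A) (h₄ : W.a₄ ∈ A) {β : K} (hβ : β ^ 2 = W.a₂) {P : W.Point}
    (hP : InKer A P) :
    A.valuation (1 - β * zCoord P) = 1 ∧ A.valuation (1 + β * zCoord P) = 1 ∧
      A.valuation (uCoord β P) = 1 := by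
  have hβA : β ∈ A := mem_of_sq_mem A hβ h₂
  have hz := zCoord_val_lt_one A h₁ h₃ h₆ h₂ h₄ hP
  have hβz : A.valuation (β * zCoord P) < 1 := val_mul_lt_one_of_mem A hβA hz
  have hm := val_one_sub_small A hβz
  have hp := val_one_add_small A hβz
  refine ⟨hm, hp, ?_⟩
  rw [uCoord, map_div₀, hm, hp, div_one]

theorem uCoord_mem (h₁ : W.a₁ = 0) (h₃ : W.a₃ = 0) (h₆ : W.a₆ = 0)
    (h₂ : W.a₂ ∈ A) (h₄ : W.a₄ ∈ A) {β : K} (hβ : β ^ 2 = W.a₂) {P : W.Point}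
    (hP : InKer A P) : uCoord β P ∈ A :=
  (A.valuation_le_one_iff _).mp (uCoord_units A h₁ h₃ h₆ h₂ h₄ hβ hP).2.2.le

/-- `u - 1 = -2 β z / (1 + β z)`. -/
theorem uCoord_sub_one (h₁ : W.a₁ = 0) (h₃ : W.a₃ = 0) (h₆ : W.a₆ = 0)
    (h₂ : W.a₂ ∈ A) (h₄ : W.a₄ ∈ A) {β : K} (hβ : β ^ 2 = W.a₂) {P : W.Point}
    (hP : InKer A P) :
    (uCoord β P - 1) * (1 + β * zCoord P) = -2 * β * zCoord P := by
  have hp := (uCoord_units A h₁ h₃ h₆ h₂ h₄ hβ hP).2.1
  have hp0 : 1 + β * zCoord P ≠ 0 := ne_zero_of_val_eq_one A hp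
  rw [uCoord, sub_mul, div_mul_cancel₀ _ hp0]
  ring

variable [DecidableEq K]

/-- **Multiplicativity of the unit coordinate on the kernel of reduction**, up to
`b · z(P) · z(Q) · A`. -/
theorem u_add (h₁ : W.a₁ = 0) (h₃ : W.a₃ = 0) (h₆ : W.a₆ = 0)
    (h₂ : W.a₂ ∈ A) (h₄ : W.a₄ ∈ A) {β : K} (hβ : β ^ 2 = W.a₂) {P Q : W.Point}
    (hP : InKer A P) (hQ : InKer A Q) :
    ∃ c ∈ A, uCoord β (P + Q) - uCoord β P * uCoord β Q = W.a₄ * zCoord P * zCoord Q * c := by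
  match P, Q, hP, hQ with
  | .zero, Q, _, hQ =>
    refine ⟨0, A.zero_mem, ?_⟩
    show uCoord β (0 + Q) - uCoord β (0 : W.Point) * uCoord β Q =
      W.a₄ * zCoord (0 : W.Point) * zCoord Q * 0
    rw [zero_add, uCoord_zero]
    ring
  | .some x1 y1 hn1, .zero, hP, _ =>
    refine ⟨0, A.zero_mem, ?_⟩
    show uCoord β (Point.some x1 y1 hn1 + 0) - uCoord β (Point.some x1 y1 hn1) *
      uCoord β (0 : W.Point) = W.a₄ * zCoord (Point.some x1 y1 hn1) * zCoord (0 : W.Point) * 0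
    rw [add_zero, uCoord_zero]
    ring
  | .some x1 y1 hn1, .some x2 y2 hn2, hP, hQ =>
    have e1 := equation_of_special h₁ h₃ h₆ hn1
    have e2 := equation_of_special h₁ h₃ h₆ hn2
    have hP' : x1 ∉ A := hP
    have hQ' : x2 ∉ A := hQ
    by_cases hx : x1 = x2
    · by_cases hy : y1 = W.negY x2 y2
      · rw [Point.add_of_Y_eq hx hy]
        refine ⟨0, A.zero_mem, ?_⟩
        have hy' : y1 = -y2 := by
          rw [hy]; simp only [Affine.negY, h₁, h₃]; ring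
        have hu1 := uCoord_units A h₁ h₃ h₆ h₂ h₄ hβ (P := Point.some x1 y1 hn1) hP
        have hu2 := uCoord_units A h₁ h₃ h₆ h₂ h₄ hβ (P := Point.some x2 y2 hn2) hQ
        have hz12 : zCoord (Point.some x1 y1 hn1) = -zCoord (Point.some x2 y2 hn2) := by
          show x1 / y1 = -(x2 / y2)
          rw [hx, hy', div_neg]
        have a1 := ne_zero_of_val_eq_one A hu2.1
        have a2 := ne_zero_of_val_eq_one A hu2.2.1
        rw [uCoord_zero, uCoord, uCoord, hz12, mul_neg, sub_neg_eq_add, ← sub_eq_add_neg,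
          div_mul_div_comm, mul_comm (1 + β * zCoord (Point.some x2 y2 hn2)),
          div_self (mul_ne_zero a1 a2)]
        ring
      · have hyy : y1 = y2 := Affine.Y_eq_of_Y_ne hn1.1 hn2.1 hx hy
        subst hx
        subst hyy
        have hD : y1 - W.negY x1 y1 ≠ 0 := sub_ne_zero.mpr hy
        have hDy : y1 - W.negY x1 y1 = y1 + y1 := by
          simp only [Affine.negY, h₁, h₃]; ring
        rw [Point.add_of_Y_ne hy]
        show ∃ c ∈ A,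
          (1 - β * (W.addX x1 x1 (W.slope x1 x1 y1 y1) /
              W.addY x1 x1 y1 (W.slope x1 x1 y1 y1))) /
            (1 + β * (W.addX x1 x1 (W.slope x1 x1 y1 y1) /
              W.addY x1 x1 y1 (W.slope x1 x1 y1 y1))) -
            (1 - β * (x1 / y1)) / (1 + β * (x1 / y1)) *
              ((1 - β * (x1 / y1)) / (1 + β * (x1 / y1))) = W.a₄ * (x1 / y1) * (x1 / y1) * c
        rw [Affine.slope_of_Y_ne rfl hy, addX_of_special h₁, addY_of_special h₁ h₃, h₁, zero_mul,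
          sub_zero]
        exact ker_umul_core A h₂ h₄ hβ e1 e1 hP' hP'
          (idB_double hD hDy e1) (idC_double hD hDy e1)
    · rw [Point.add_of_X_ne hx]
      show ∃ c ∈ A,
        (1 - β * (W.addX x1 x2 (W.slope x1 x2 y1 y2) /
            W.addY x1 x2 y1 (W.slope x1 x2 y1 y2))) /
          (1 + β * (W.addX x1 x2 (W.slope x1 x2 y1 y2) /
            W.addY x1 x2 y1 (W.slope x1 x2 y1 y2))) -
          (1 - β * (x1 / y1)) / (1 + β * (x1 / y1)) *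
            ((1 - β * (x2 / y2)) / (1 + β * (x2 / y2))) = W.a₄ * (x1 / y1) * (x2 / y2) * c
      rw [Affine.slope_of_X_ne hx, addX_of_special h₁, addY_of_special h₁ h₃]
      exact ker_umul_core A h₂ h₄ hβ e1 e2 hP' hQ'
        (idB_generic hx e1 e2) (idC_generic hx e1 e2)

/-- **Powers**: `u(n • P) - u(P) ^ n ∈ b · z(P)² · A` on the kernel of reduction. -/
theorem u_nsmul (h₁ : W.a₁ = 0) (h₃ : W.a₃ = 0) (h₆ : W.a₆ = 0)
    (h₂ : W.a₂ ∈ A) (h₄ : W.a₄ ∈ A) {β : K} (hβ : β ^ 2 = W.a₂) {P : W.Point}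
    (hP : InKer A P) (n : ℕ) :
    ∃ c ∈ A, uCoord β (n • P) - uCoord β P ^ n = W.a₄ * zCoord P ^ 2 * c := by
  induction n with
  | zero =>
    refine ⟨0, A.zero_mem, ?_⟩
    rw [zero_smul, uCoord_zero, pow_zero]
    ring
  | succ n ih =>
    obtain ⟨c, hc, ih⟩ := ih
    obtain ⟨hn1, c', hc', hn2⟩ := ker_nsmul A h₁ h₃ h₆ h₂ h₄ hP n
    obtain ⟨d, hd, hadd⟩ := u_add A h₁ h₃ h₆ h₂ h₄ hβ hn1 hP
    have hz : zCoord P ∈ A := mem_of_val_lt_one A (zCoord_val_lt_one A h₁ h₃ h₆ h₂ h₄ hP)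
    have hu : uCoord β P ∈ A := uCoord_mem A h₁ h₃ h₆ h₂ h₄ hβ hP
    refine ⟨(n + zCoord P * c') * d + uCoord β P * c, ?_, ?_⟩
    · exact add_mem (mul_mem (add_mem (natCast_mem A n) (mul_mem hz hc')) hd) (mul_mem hu hc)
    · rw [succ_nsmul, pow_succ]
      rw [hn2] at hadd
      linear_combination hadd + uCoord β P * ih

end Points

end Fermat.Agent.TR.FreyPeu
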