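/-
TR, E-side (E-PEU), brick 2: the core of the peu-ramifié argument on the kernel of reduction.

`A` a valuation subring of an algebraically closed field `K ⊇ F`, residue characteristic `p`;
curve `y² = x³ + a x² + b x` over `F` with `v(b) ≤ v(p)^p`; `σ` an automorphism of `K/F`
preserving the maximal ideal of `A` and fixing `β = √a`.  If `S` is a point of the kernel of
reduction such that `σ` fixes every `p`-th root of the unit `u(p • S)`, and `σ S - S` is killed
by `p`, then `σ S = S` (`core_fixed`).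
-/
import Fermat.Agent.TR.FreyPeu.UMul
import Fermat.Agent.S05.LocalMult

set_option autoImplicit false

namespace Fermat.Agent.TR.FreyPeu

open WeierstrassCurve WeierstrassCurve.Affine Polynomial
open Fermat.Agent.S05 Fermat.Agent.S05.E1

section Multiset

variable {K : Type*} [Field K] {Γ₀ : Type*} [LinearOrderedCommGroupWithZero Γ₀]
  (v : Valuation K Γ₀)

theorem pow_card_le_val_prod (m : Multiset K) (c : Γ₀) (h : ∀ x ∈ m, c ≤ v x) :
    c ^ m.card ≤ v m.prod := by
  induction m using Multiset.induction_on with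
  | empty => simp
  | cons a m ih =>
    rw [Multiset.card_cons, Multiset.prod_cons, map_mul, pow_succ, mul_comm]
    exact mul_le_mul' (h a (Multiset.mem_cons_self a m))
      (ih fun x hx => h x (Multiset.mem_cons_of_mem hx))

theorem exists_val_lt_of_prod_lt (m : Multiset K) (c : Γ₀) (h : v m.prod < c ^ m.card) :
    ∃ x ∈ m, v x < c := by
  by_contra hcon
  push Not at hcon
  exact absurd h (not_lt.mpr (pow_card_le_val_prod v m c hcon))

/-- If `v (y ^ p - u) < c ^ p`, then some `p`-th root `w` of `u` has `v (y - w) < c`. -/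
theorem exists_root_close [IsAlgClosed K] {p : ℕ} (hp : p ≠ 0) (y u : K) (c : Γ₀)
    (h : v (y ^ p - u) < c ^ p) : ∃ w : K, w ^ p = u ∧ v (y - w) < c := by
  have hm : (X ^ p - C u : K[X]).Monic := monic_X_pow_sub_C u hp
  have hs : (X ^ p - C u : K[X]).Splits := IsAlgClosed.splits _
  have hcard : (X ^ p - C u : K[X]).roots.card = p := by
    rw [← hs.natDegree_eq_card_roots, natDegree_X_pow_sub_C]
  have hev : (X ^ p - C u : K[X]).eval y = ((X ^ p - C u : K[X]).roots.map (y - ·)).prod :=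
    hs.eval_eq_prod_roots_of_monic hm y
  have hev' : (X ^ p - C u : K[X]).eval y = y ^ p - u := by simp
  have h' : v (((X ^ p - C u : K[X]).roots.map (y - ·)).prod) <
      c ^ ((X ^ p - C u : K[X]).roots.map (y - ·)).card := by
    rw [← hev, hev', Multiset.card_map, hcard]; exact h
  obtain ⟨x, hx, hxc⟩ := exists_val_lt_of_prod_lt v _ c h'
  obtain ⟨w, hw, rfl⟩ := Multiset.mem_map.mp hx
  refine ⟨w, ?_, hxc⟩
  have hr := (mem_roots hm.ne_zero).mp hw
  have hr' : (X ^ p - C u : K[X]).eval w = 0 := hr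
  simpa [sub_eq_zero] using hr'

end Multiset

section Map

variable {F K : Type*} [Field F] [Field K] [Algebra F K] [DecidableEq K] (W₀ : Affine F)

theorem zCoord_map (σ : K ≃ₐ[F] K) (P : (W₀⁄K).Point) :
    zCoord (Point.map (W' := W₀) σ.toAlgHom P) = σ (zCoord P) := by
  rcases P with _ | ⟨x, y, h⟩
  · have h0 : (Point.zero : (W₀⁄K).Point) = 0 := rfl
    rw [h0, map_zero, zCoord_zero, map_zero]
  · rw [Point.map_some, zCoord_some, zCoord_some, map_div₀]
    rfl

theorem uCoord_map (σ : K ≃ₐ[F] K) {β : K} (hσβ : σ β = β) (P : (W₀⁄K).Point) :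
    uCoord β (Point.map (W' := W₀) σ.toAlgHom P) = σ (uCoord β P) := by
  rw [uCoord, uCoord, zCoord_map, map_div₀, map_sub, map_add, map_mul, map_one, hσβ]

theorem inKer_map (A : ValuationSubring K) (σ : K ≃ₐ[F] K)
    (hσ : ∀ x : K, A.valuation x < 1 → A.valuation (σ x) < 1) {P : (W₀⁄K).Point}
    (hP : InKer A P) : InKer A (Point.map (W' := W₀) σ.toAlgHom P) := by
  rcases P with _ | ⟨x, y, h⟩
  · have h0 : (Point.zero : (W₀⁄K).Point) = 0 := rfl
    rw [h0, map_zero]
    trivial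
  · rw [Point.map_some]
    show σ x ∉ A
    have hx : x ∉ A := hP
    rw [← A.valuation_le_one_iff, not_le] at hx ⊢
    have h1 : A.valuation x⁻¹ < 1 := by
      rw [map_inv₀]; exact inv_lt_one_of_one_lt₀ hx
    have h2 := hσ _ h1
    rw [map_inv₀, map_inv₀] at h2
    by_contra hcon
    rw [not_lt] at hcon
    have hx0 : A.valuation (σ x) ≠ 0 := by
      rw [Valuation.ne_zero_iff, ne_eq, map_eq_zero]
      rintro rfl
      rw [map_zero] at hx
      exact absurd hx (not_lt.mpr zero_le_one)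
    exact absurd h2 (not_lt.mpr ((one_le_inv₀ (zero_lt_iff.mpr hx0)).mpr hcon))

omit [DecidableEq K] in
/-- Translation between the valuation-subring form and the valuation form of the kernel of
reduction, for the valuation of a valuation subring. -/
theorem inKer_iff_inE1_val (A : ValuationSubring K) {W : Affine K} {P : W.Point} :
    InKer A P ↔ InE1 A.valuation P := by
  match P with
  | .zero => exact Iff.rfl
  | .some x y h =>
    show x ∉ A ↔ 1 < A.valuation x
    rw [← A.valuation_le_one_iff, not_le]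

omit [DecidableEq K] in
theorem eq_zero_of_zCoord_eq_zero (A : ValuationSubring K) {W : Affine K} (h₁ : W.a₁ = 0)
    (h₃ : W.a₃ = 0) (h₆ : W.a₆ = 0) (h₂ : W.a₂ ∈ A) (h₄ : W.a₄ ∈ A) {P : W.Point}
    (hP : InKer A P) (hz : zCoord P = 0) : P = 0 := by
  match P, hP with
  | .zero, _ => rfl
  | .some x y hxy, hP =>
    exfalso
    obtain ⟨hx0, hy0, -, -, -⟩ := ker_basic A h₂ h₄ (equation_of_special h₁ h₃ h₆ hxy) hP
    exact div_ne_zero hx0 hy0 hz

end Map

section Core

variable {F K : Type*} [Field F] [Field K] [Algebra F K] [DecidableEq K] [IsAlgClosed K]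

/-- **The core of (E-PEU).** -/
theorem core_fixed (A : ValuationSubring K) (W₀ : Affine F) (hW : IsLeg W₀)
    (ha : algebraMap F K W₀.a₂ ∈ A) (hb : algebraMap F K W₀.a₄ ∈ A)
    (h2 : A.valuation (2 : K) = 1)
    {β : K} (hβ : β ^ 2 = algebraMap F K W₀.a₂) (hβ1 : A.valuation β = 1)
    {p : ℕ} (hp : 2 ≤ p) (hpv : A.valuation (p : K) < 1) (hp0 : (p : K) ≠ 0)
    (hbp : A.valuation (algebraMap F K W₀.a₄) ≤ A.valuation (p : K) ^ p)
    (σ : K ≃ₐ[F] K) (hσ : ∀ x : K, A.valuation x < 1 → A.valuation (σ x) < 1)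
    (hσβ : σ β = β)
    (S : (W₀⁄K).Point) (hS : InKer A S)
    (hH : ∀ w : K, w ^ p = uCoord β (p • S) → σ w = w)
    (hT : p • (Point.map (W' := W₀) σ.toAlgHom S - S) = 0) :
    Point.map (W' := W₀) σ.toAlgHom S = S := by
  have hWK : IsLeg (W₀⁄K) := LocalMult.isLeg_baseChange W₀ hW
  have h₂ : (W₀⁄K).a₂ ∈ A := ha
  have h₄ : (W₀⁄K).a₄ ∈ A := hb
  have hβ' : β ^ 2 = (W₀⁄K).a₂ := hβ
  have hbK : (W₀⁄K).a₄ = algebraMap F K W₀.a₄ := rfl
  obtain ⟨S', hS'⟩ : ∃ S', S' = Point.map (W' := W₀) σ.toAlgHom S := ⟨_, rfl⟩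
  obtain ⟨T, hTdef⟩ : ∃ T, T = S' - S := ⟨_, rfl⟩
  rw [← hS'] at hT ⊢
  rw [← hTdef] at hT
  have hS'k : InKer A S' := by rw [hS']; exact inKer_map W₀ A σ hσ hS
  have hTk : InKer A T := by
    rw [hTdef, sub_eq_add_neg]
    exact inKer_add A hWK.a₁ hWK.a₃ hWK.a₆ h₂ h₄ hS'k (inKer_neg A hS)
  have hST : S + T = S' := by rw [hTdef]; abel
  have huS' : uCoord β S' = σ (uCoord β S) := by rw [hS']; exact uCoord_map W₀ σ hσβ S
  obtain ⟨c, hc, h1⟩ := u_nsmul A hWK.a₁ hWK.a₃ hWK.a₆ h₂ h₄ hβ' hS p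
  obtain ⟨d, hd, h2'⟩ := u_add A hWK.a₁ hWK.a₃ hWK.a₆ h₂ h₄ hβ' hS hTk
  rw [hST, huS'] at h2'
  obtain ⟨-, c', hc', h3⟩ := ker_nsmul A hWK.a₁ hWK.a₃ hWK.a₆ h₂ h₄ hTk p
  rw [hT, zCoord_zero] at h3
  have hzS := zCoord_val_lt_one A hWK.a₁ hWK.a₃ hWK.a₆ h₂ h₄ hS
  have hzT := zCoord_val_lt_one A hWK.a₁ hWK.a₃ hWK.a₆ h₂ h₄ hTk
  have huS := (uCoord_units A hWK.a₁ hWK.a₃ hWK.a₆ h₂ h₄ hβ' hS).2.2
  have huT := uCoord_units A hWK.a₁ hWK.a₃ hWK.a₆ h₂ h₄ hβ' hTk
  have hsub := uCoord_sub_one A hWK.a₁ hWK.a₃ hWK.a₆ h₂ h₄ hβ' hTk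
  rw [hbK] at h1 h2'
  -- names
  obtain ⟨zS, hzSd⟩ : ∃ zS, zS = zCoord S := ⟨_, rfl⟩
  obtain ⟨zT, hzTd⟩ : ∃ zT, zT = zCoord T := ⟨_, rfl⟩
  obtain ⟨uS, huSd⟩ : ∃ uS, uS = uCoord β S := ⟨_, rfl⟩
  obtain ⟨uT, huTd⟩ : ∃ uT, uT = uCoord β T := ⟨_, rfl⟩
  obtain ⟨u0, hu0d⟩ : ∃ u0, u0 = uCoord β (p • S) := ⟨_, rfl⟩
  obtain ⟨b, hbd⟩ : ∃ b, b = algebraMap F K W₀.a₄ := ⟨_, rfl⟩
  rw [← hzSd, ← huSd, ← hu0d, ← hbd] at h1
  rw [← hzSd, ← hzTd, ← huSd, ← huTd, ← hbd] at h2'
  rw [← hzTd] at h3 hzT hsub huT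
  rw [← hzSd] at hzS
  rw [← huSd] at huS
  rw [← huTd] at hsub
  rw [← hu0d] at hH
  rw [← hbd] at hbp
  have hvp0 : A.valuation (p : K) ≠ 0 := (Valuation.ne_zero_iff _).mpr hp0
  have hvp_pos : 0 < A.valuation (p : K) := zero_lt_iff.mpr hvp0
  have hcv : A.valuation c ≤ 1 := (A.valuation_le_one_iff c).mpr hc
  have hdv : A.valuation d ≤ 1 := (A.valuation_le_one_iff d).mpr hd
  -- `v b < v p`
  have hbp' : A.valuation b < A.valuation (p : K) := by
    refine lt_of_le_of_lt hbp ?_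
    calc A.valuation (p : K) ^ p ≤ A.valuation (p : K) ^ 2 :=
          pow_le_pow_of_le_one zero_le hpv.le hp
      _ = A.valuation (p : K) * A.valuation (p : K) := sq _
      _ < A.valuation (p : K) * 1 := mul_lt_mul_of_pos_left hpv hvp_pos
      _ = A.valuation (p : K) := mul_one _
  -- step 1: a `p`-th root of `u0` close to `uS`
  have hroot : A.valuation (uS ^ p - u0) < A.valuation (p : K) ^ p := by
    have e : uS ^ p - u0 = -(b * zS ^ 2 * c) := by linear_combination -h1
    rw [e, Valuation.map_neg, map_mul, map_mul, map_pow]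
    have hz2 : A.valuation zS ^ 2 < 1 := pow_lt_one₀ zero_le hzS two_ne_zero
    calc A.valuation b * A.valuation zS ^ 2 * A.valuation c
        ≤ A.valuation (p : K) ^ p * A.valuation zS ^ 2 * 1 :=
          mul_le_mul' (mul_le_mul' hbp le_rfl) hcv
      _ = A.valuation (p : K) ^ p * A.valuation zS ^ 2 := mul_one _
      _ < A.valuation (p : K) ^ p * 1 := mul_lt_mul_of_pos_left hz2 (pow_pos hvp_pos p)
      _ = A.valuation (p : K) ^ p := mul_one _
  obtain ⟨w, hw, hwc⟩ := exists_root_close A.valuation (by omega) uS u0 (A.valuation (p : K)) hroot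
  have hσw : σ w = w := hH w hw
  -- step 2: `σ uS` is close to `uS`
  have hδ : A.valuation (σ (uS - w)) < A.valuation (p : K) := by
    have e : uS - w = (p : K) * ((uS - w) / (p : K)) := by field_simp
    have hq : A.valuation ((uS - w) / (p : K)) < 1 := by
      rw [map_div₀]; exact (div_lt_one₀ hvp_pos).mpr hwc
    rw [e, map_mul, map_natCast, map_mul]
    calc A.valuation (p : K) * A.valuation (σ ((uS - w) / (p : K)))
        < A.valuation (p : K) * 1 := mul_lt_mul_of_pos_left (hσ _ hq) hvp_pos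
      _ = A.valuation (p : K) := mul_one _
  have h4 : A.valuation (σ uS - uS) < A.valuation (p : K) := by
    have e : σ uS - uS = σ (uS - w) - (uS - w) := by rw [map_sub, hσw]; ring
    rw [e]
    exact A.valuation.map_sub_lt hδ hwc
  -- step 3: `uT` is close to `1`
  have h5 : A.valuation (uT - 1) < A.valuation (p : K) := by
    have e : uS * (uT - 1) = (σ uS - uS) - b * zS * zT * d := by linear_combination -h2'
    have h6 : A.valuation (uS * (uT - 1)) < A.valuation (p : K) := by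
      rw [e]
      refine A.valuation.map_sub_lt h4 (lt_of_le_of_lt ?_ hbp')
      rw [map_mul, map_mul, map_mul]
      calc A.valuation b * A.valuation zS * A.valuation zT * A.valuation d
          ≤ A.valuation b * 1 * 1 * 1 :=
            mul_le_mul' (mul_le_mul' (mul_le_mul' le_rfl hzS.le) hzT.le) hdv
        _ = A.valuation b := by rw [mul_one, mul_one, mul_one]
    rwa [map_mul, huS, one_mul] at h6
  -- step 4: `zT` is small
  have h7 : A.valuation zT < A.valuation (p : K) := by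
    have e := congrArg A.valuation hsub
    rw [map_mul, huT.2.1, mul_one, map_mul, map_mul, Valuation.map_neg, h2, hβ1, one_mul,
      one_mul] at e
    rw [← e]; exact h5
  -- step 5: `zT = 0`
  have hzT0 : zT = 0 := by
    by_contra hne
    have e : (p : K) = -(zT * c') := by
      have h8 : zT * ((p : K) + zT * c') = 0 := by linear_combination -h3
      have h9 := (mul_eq_zero.mp h8).resolve_left hne
      linear_combination h9
    have h10 : A.valuation (p : K) ≤ A.valuation zT := by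
      conv_lhs => rw [e]
      rw [Valuation.map_neg, map_mul]
      calc A.valuation zT * A.valuation c' ≤ A.valuation zT * 1 :=
            mul_le_mul' le_rfl ((A.valuation_le_one_iff c').mpr hc')
        _ = A.valuation zT := mul_one _
    exact absurd h7 (not_lt.mpr h10)
  have hT0 : T = 0 :=
    eq_zero_of_zCoord_eq_zero A hWK.a₁ hWK.a₃ hWK.a₆ h₂ h₄ hTk (by rw [← hzTd]; exact hzT0)
  rw [hTdef] at hT0
  exact sub_eq_zero.mp hT0

end Core

end Fermat.Agent.TR.FreyPeu
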