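/-
TR, E-side (E-PEU), brick 3: the local theorem.

`A` a valuation subring of an algebraically closed field `K ⊇ F` with residue characteristic `p`
(odd), `I` a set of automorphisms of `K/F` acting trivially on the residue field, whose fixed
field has the full residue field (`hres`).  Curve `y² = x³ + a x² + b x` over `F`, `v(a) = 1`,
`b = t ^ p`, `v(t) ≤ v(p)` (multiplicative reduction, `p ∣ v(Δ)`).  If `σ ∈ I` fixes every `p`-th
root of every unit of the fixed field of `I`, then `σ` fixes every `p`-torsion point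
(`fixed_of_mult_peu`): the `p`-torsion is "peu ramifié".
-/
import Fermat.Agent.TR.FreyPeu.Core

set_option autoImplicit false

namespace Fermat.Agent.TR.FreyPeu

open WeierstrassCurve WeierstrassCurve.Affine
open Fermat.Agent.S05 Fermat.Agent.S05.E1

section Fix

variable {F K : Type*} [Field F] [Field K] [Algebra F K] (A : ValuationSubring K)

/-- An automorphism acting trivially on the residue field (residue characteristic `≠ 2`) fixes a
unit as soon as it fixes its square. -/
theorem fix_of_sq (τ : K ≃ₐ[F] K)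
    (hτ : ∀ x : K, A.valuation x ≤ 1 → A.valuation (τ x - x) < 1)
    (h2 : A.valuation (2 : K) = 1) {y : K} (hy : A.valuation y = 1) (hsq : τ (y ^ 2) = y ^ 2) :
    τ y = y := by
  have h := hτ y hy.le
  have e : (τ y - y) * (τ y + y) = 0 := by
    rw [map_pow] at hsq
    linear_combination hsq
  rcases mul_eq_zero.mp e with h0 | h0
  · exact sub_eq_zero.mp h0
  · exfalso
    have e2 : τ y - y = -(2 * y) := by linear_combination h0
    rw [e2, Valuation.map_neg, map_mul, h2, hy, one_mul] at h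
    exact lt_irrefl _ h

theorem map_lt_one_of_spec (τ : K ≃ₐ[F] K)
    (hτ : ∀ x : K, A.valuation x ≤ 1 → A.valuation (τ x - x) < 1) (x : K)
    (hx : A.valuation x < 1) : A.valuation (τ x) < 1 := by
  have h := hτ x hx.le
  have e : τ x = (τ x - x) + x := by ring
  rw [e]
  exact A.valuation.map_add_lt h hx

end Fix

section Local

variable {F K : Type*} [Field F] [Field K] [Algebra F K] [DecidableEq K] [IsAlgClosed K]

/-- The general step: a point `S` of the kernel of reduction with `p • S` fixed by `I` and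
`p • (σ S - S) = 0` is fixed by `σ`. -/
theorem fixed_via (A : ValuationSubring K) (W₀ : Affine F) (hW : IsLeg W₀)
    (I : Set (K ≃ₐ[F] K))
    (hI : ∀ τ ∈ I, ∀ x : K, A.valuation x ≤ 1 → A.valuation (τ x - x) < 1)
    (h2 : A.valuation (2 : K) = 1) (ha : A.valuation (algebraMap F K W₀.a₂) = 1)
    (hb : algebraMap F K W₀.a₄ ∈ A)
    {β : K} (hβ : β ^ 2 = algebraMap F K W₀.a₂)
    {p : ℕ} (hp : 2 ≤ p) (hpv : A.valuation (p : K) < 1) (hp0 : (p : K) ≠ 0)
    (hbp : A.valuation (algebraMap F K W₀.a₄) ≤ A.valuation (p : K) ^ p)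
    (σ : K ≃ₐ[F] K) (hσ : σ ∈ I)
    (hH : ∀ w : K, (∀ τ ∈ I, τ (w ^ p) = w ^ p) → A.valuation (w ^ p) = 1 → σ w = w)
    (S : (W₀⁄K).Point) (hS : InKer A S)
    (hfix : ∀ τ ∈ I, Point.map (W' := W₀) τ.toAlgHom (p • S) = p • S)
    (hT : p • (Point.map (W' := W₀) σ.toAlgHom S - S) = 0) :
    Point.map (W' := W₀) σ.toAlgHom S = S := by
  have hWK : IsLeg (W₀⁄K) := LocalMult.isLeg_baseChange W₀ hW
  have haA : algebraMap F K W₀.a₂ ∈ A := (A.valuation_le_one_iff _).mp ha.le
  have h₂ : (W₀⁄K).a₂ ∈ A := haA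
  have h₄ : (W₀⁄K).a₄ ∈ A := hb
  have hβ' : β ^ 2 = (W₀⁄K).a₂ := hβ
  have hβ1 : A.valuation β = 1 := by
    have h : A.valuation β ^ 2 = 1 := by rw [← map_pow, hβ, ha]
    exact (pow_eq_one_iff.mp h).resolve_right two_ne_zero
  have hβfix : ∀ τ ∈ I, τ β = β := fun τ hτ =>
    fix_of_sq A τ (hI τ hτ) h2 hβ1 (by rw [hβ]; exact τ.commutes _)
  refine core_fixed A W₀ hW haA hb h2 hβ hβ1 hp hpv hp0 hbp σ
    (map_lt_one_of_spec A σ (hI σ hσ)) (hβfix σ hσ) S hS (fun w hw => hH w ?_ ?_) hT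
  · intro τ hτ
    rw [hw, ← uCoord_map W₀ τ (hβfix τ hτ), hfix τ hτ]
  · rw [hw]
    exact (uCoord_units A hWK.a₁ hWK.a₃ hWK.a₆ h₂ h₄ hβ'
      (ker_nsmul A hWK.a₁ hWK.a₃ hWK.a₆ h₂ h₄ hS p).1).2.2

/-- A `p`-torsion point congruent, modulo the kernel of reduction, to an `I`-fixed point is fixed
by `σ`. -/
theorem fixed_of_lift (A : ValuationSubring K) (W₀ : Affine F) (hW : IsLeg W₀)
    (I : Set (K ≃ₐ[F] K))
    (hI : ∀ τ ∈ I, ∀ x : K, A.valuation x ≤ 1 → A.valuation (τ x - x) < 1)
    (h2 : A.valuation (2 : K) = 1) (ha : A.valuation (algebraMap F K W₀.a₂) = 1)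
    (hb : algebraMap F K W₀.a₄ ∈ A)
    {β : K} (hβ : β ^ 2 = algebraMap F K W₀.a₂)
    {p : ℕ} (hp : 2 ≤ p) (hpv : A.valuation (p : K) < 1) (hp0 : (p : K) ≠ 0)
    (hbp : A.valuation (algebraMap F K W₀.a₄) ≤ A.valuation (p : K) ^ p)
    (σ : K ≃ₐ[F] K) (hσ : σ ∈ I)
    (hH : ∀ w : K, (∀ τ ∈ I, τ (w ^ p) = w ^ p) → A.valuation (w ^ p) = 1 → σ w = w)
    (P R : (W₀⁄K).Point) (hP : p • P = 0)
    (hR : ∀ τ ∈ I, Point.map (W' := W₀) τ.toAlgHom R = R) (hPR : InKer A (P - R)) :
    Point.map (W' := W₀) σ.toAlgHom P = P := by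
  have key := fixed_via A W₀ hW I hI h2 ha hb hβ hp hpv hp0 hbp σ hσ hH (P - R) hPR ?_ ?_
  · rw [map_sub, hR σ hσ] at key
    exact sub_left_injective key
  · intro τ hτ
    rw [map_nsmul, map_sub, hR τ hτ, smul_sub, smul_sub, ← map_nsmul, hP, map_zero]
  · rw [map_sub, hR σ hσ, sub_sub_sub_cancel_right, smul_sub, ← map_nsmul, hP, map_zero,
      sub_zero]

/-- **The local theorem (E-PEU)**: multiplicative reduction in residue characteristic `p` with
`p ∣ v(Δ)`: an element `σ` of the inertia group fixing all `p`-th roots of units of the inertia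
field fixes the `p`-torsion. -/
theorem fixed_of_mult_peu (A : ValuationSubring K) (W₀ : Affine F) (hW : IsLeg W₀)
    (I : Set (K ≃ₐ[F] K))
    (hI : ∀ τ ∈ I, ∀ x : K, A.valuation x ≤ 1 → A.valuation (τ x - x) < 1)
    (hres : ∀ x : K, A.valuation x ≤ 1 →
      ∃ w : K, (∀ τ ∈ I, τ w = w) ∧ A.valuation (x - w) < 1)
    (h2 : A.valuation (2 : K) = 1) (ha : A.valuation (algebraMap F K W₀.a₂) = 1)
    (hb0 : W₀.a₄ ≠ 0)
    {p : ℕ} (hp : p.Prime) (hp2 : p ≠ 2) (hpv : A.valuation (p : K) < 1) (hp0 : (p : K) ≠ 0)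
    {t : F} (ht : W₀.a₄ = t ^ p)
    (htp : A.valuation (algebraMap F K t) ≤ A.valuation (p : K))
    (σ : K ≃ₐ[F] K) (hσ : σ ∈ I)
    (hH : ∀ w : K, (∀ τ ∈ I, τ (w ^ p) = w ^ p) → A.valuation (w ^ p) = 1 → σ w = w)
    (P : (W₀⁄K).Point) (hP : p • P = 0) :
    Point.map (W' := W₀) σ.toAlgHom P = P := by
  obtain ⟨v, hv⟩ : ∃ v, v = A.valuation := ⟨_, rfl⟩
  have hWK : IsLeg (W₀⁄K) := LocalMult.isLeg_baseChange W₀ hW
  have hp2' : 2 ≤ p := hp.two_le
  have hvp0 : A.valuation (p : K) ≠ 0 := (Valuation.ne_zero_iff _).mpr hp0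
  have hbp : A.valuation (algebraMap F K W₀.a₄) ≤ A.valuation (p : K) ^ p := by
    rw [ht, map_pow, map_pow]
    exact pow_le_pow_left₀ zero_le htp p
  have hb : A.valuation (algebraMap F K W₀.a₄) < 1 :=
    lt_of_le_of_lt hbp (pow_lt_one₀ zero_le hpv hp.ne_zero)
  have hbA : algebraMap F K W₀.a₄ ∈ A := (A.valuation_le_one_iff _).mp hb.le
  have ha' : v (W₀⁄K).a₂ = 1 := by rw [hv]; exact ha
  have hb' : v (W₀⁄K).a₄ < 1 := by rw [hv]; exact hb
  have h2v : v 2 = 1 := by rw [hv]; exact h2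
  have hb0' : (W₀⁄K).a₄ ≠ 0 := by
    show algebraMap F K W₀.a₄ ≠ 0
    exact (map_ne_zero _).mpr hb0
  obtain ⟨β, hβ⟩ := IsAlgClosed.exists_pow_nat_eq (algebraMap F K W₀.a₂) (n := 2) (by norm_num)
  have hβ' : β ^ 2 = (W₀⁄K).a₂ := hβ
  have haK : ∀ τ : K ≃ₐ[F] K, τ (W₀⁄K).a₂ = (W₀⁄K).a₂ := fun τ => τ.commutes _
  have hbK : ∀ τ : K ≃ₐ[F] K, τ (W₀⁄K).a₄ = (W₀⁄K).a₄ := fun τ => τ.commutes _
  -- the two ways of concluding
  have viaLift : ∀ R : (W₀⁄K).Point, (∀ τ ∈ I, Point.map (W' := W₀) τ.toAlgHom R = R) →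
      InE1 v (P - R) → Point.map (W' := W₀) σ.toAlgHom P = P := by
    intro R hR hPR
    rw [hv] at hPR
    exact fixed_of_lift A W₀ hW I hI h2 ha hbA hβ hp2' hpv hp0 hbp σ hσ hH P R hP hR
      ((inKer_iff_inE1_val A).mpr hPR)
  rcases P with _ | ⟨x, y, h⟩
  · have h0 : (Point.zero : (W₀⁄K).Point) = 0 := rfl
    rw [h0, map_zero]
  · have hE : LegEq (W₀⁄K).a₂ (W₀⁄K).a₄ x y := ((hWK.nonsingular_iff x y).mp h).1
    have hfix0 : ∀ τ ∈ I, Point.map (W' := W₀) τ.toAlgHom (0 : (W₀⁄K).Point) = 0 :=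
      fun τ _ => map_zero _
    rcases lt_trichotomy (v x) 1 with hx | hx | hx
    · -- `v x < 1`: node type
      have htK : (W₀⁄K).a₄ = (algebraMap F K t) ^ p := by
        show algebraMap F K W₀.a₄ = _
        rw [ht, map_pow]
      obtain ⟨hbx, m, hm⟩ :=
        torsion_val v hWK ha' h2v hb' hb0' hβ' hp hp2 htK h hP hx
      have hτ0 : algebraMap F K t ≠ 0 := by
        intro h0
        apply hb0'
        rw [htK, h0, zero_pow hp.ne_zero]
      have hyx : v y = v x := LocalMult.val_y_eq_val_x v ha' hbx hx hE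
      have hx0' : 0 < v x := lt_of_le_of_lt zero_le hbx
      obtain ⟨τm, hτmd⟩ : ∃ τm, τm = (algebraMap F K t) ^ m := ⟨_, rfl⟩
      have hτm0 : τm ≠ 0 := by rw [hτmd]; exact zpow_ne_zero m hτ0
      have hvτm : v τm = v x := by rw [hτmd, map_zpow₀, hm]
      have hτmfix : ∀ τ : K ≃ₐ[F] K, τ τm = τm := by
        intro τ
        rw [hτmd, map_zpow₀, τ.commutes]
      have hc1 : A.valuation (x / τm) ≤ 1 := by
        rw [← hv, map_div₀, hvτm, div_self hx0'.ne']
      obtain ⟨w, hwfix, hw⟩ := hres (x / τm) hc1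
      rw [← hv] at hw
      obtain ⟨xR, hxRd⟩ : ∃ xR, xR = w * τm := ⟨_, rfl⟩
      have hxR : v (x - xR) < v x := by
        have e : x - xR = (x / τm - w) * τm := by
          rw [hxRd, sub_mul, div_mul_cancel₀ _ hτm0]
        rw [e, map_mul, hvτm]
        calc v (x / τm - w) * v x < 1 * v x := mul_lt_mul_of_pos_right hw hx0'
          _ = v x := one_mul _
      have hvxR : v xR = v x := by
        have e : xR = x - (x - xR) := by ring
        rw [e]
        exact Valuation.map_sub_eq_of_lt_left v hxR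
      have hxR0 : xR ≠ 0 := by
        intro h0
        rw [h0, map_zero] at hvxR
        exact hx0'.ne' hvxR.symm
      have hfixx : ∀ τ ∈ I, τ xR = xR := by
        intro τ hτ
        rw [hxRd, map_mul, hwfix τ hτ, hτmfix τ]
      obtain ⟨y₁, hy₁⟩ := IsAlgClosed.exists_pow_nat_eq
        (xR ^ 3 + (W₀⁄K).a₂ * xR ^ 2 + (W₀⁄K).a₄ * xR) (n := 2) (by norm_num)
      have hE₁ : LegEq (W₀⁄K).a₂ (W₀⁄K).a₄ xR y₁ := hy₁
      -- `y ^ 2 - y₁ ^ 2` is relatively small
      have hq : v (x ^ 2 + x * xR + xR ^ 2 + (W₀⁄K).a₂ * (x + xR) + (W₀⁄K).a₄) ≤ v x := by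
        have hxx : v x * v x ≤ v x := by
          calc v x * v x ≤ v x * 1 := mul_le_mul' le_rfl hx.le
            _ = v x := mul_one _
        refine Valuation.map_add_le v (Valuation.map_add_le v (Valuation.map_add_le v
          (Valuation.map_add_le v ?_ ?_) ?_) ?_) hbx.le
        · rw [map_pow, sq]; exact hxx
        · rw [map_mul, hvxR]; exact hxx
        · rw [map_pow, hvxR, sq]; exact hxx
        · rw [map_mul, ha', one_mul]
          exact Valuation.map_add_le v le_rfl hvxR.le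
      have hprod : v ((y - y₁) * (y + y₁)) < v y * v y := by
        have e : (y - y₁) * (y + y₁) = (x - xR) *
            (x ^ 2 + x * xR + xR ^ 2 + (W₀⁄K).a₂ * (x + xR) + (W₀⁄K).a₄) := by
          unfold LegEq at hE hE₁
          linear_combination hE - hE₁
        rw [e, map_mul, hyx]
        calc v (x - xR) * v (x ^ 2 + x * xR + xR ^ 2 + (W₀⁄K).a₂ * (x + xR) + (W₀⁄K).a₄)
            ≤ v (x - xR) * v x := mul_le_mul' le_rfl hq
          _ < v x * v x := mul_lt_mul_of_pos_right hxR hx0'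
      have hsign : v (y - y₁) < v y ∨ v (y + y₁) < v y := by
        by_contra hcon
        rw [not_or, not_lt, not_lt] at hcon
        have h1 : v y * v y ≤ v ((y - y₁) * (y + y₁)) := by
          rw [map_mul]; exact mul_le_mul' hcon.1 hcon.2
        exact absurd hprod (not_lt.mpr h1)
      obtain ⟨yR, hER, hyR⟩ : ∃ yR, LegEq (W₀⁄K).a₂ (W₀⁄K).a₄ xR yR ∧ v (y - yR) < v y := by
        rcases hsign with h' | h'
        · exact ⟨y₁, hE₁, h'⟩
        · refine ⟨-y₁, ?_, by rwa [sub_neg_eq_add]⟩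
          unfold LegEq at hE₁ ⊢
          rw [neg_sq]; exact hE₁
      have hvyR : v yR = v xR :=
        LocalMult.val_y_eq_val_x v ha' (by rw [hvxR]; exact hbx) (by rw [hvxR]; exact hx) hER
      have hyR0 : yR ≠ 0 := by
        intro h0
        rw [h0, map_zero, hvxR] at hvyR
        exact hx0'.ne' hvyR.symm
      have hfixy : ∀ τ ∈ I, τ yR = yR := by
        intro τ hτ
        have hr1 : A.valuation (yR / xR) = 1 := by
          rw [← hv, map_div₀, hvyR, div_self (by rw [hvxR]; exact hx0'.ne')]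
        have hr2 : (yR / xR) ^ 2 = xR + (W₀⁄K).a₂ + (W₀⁄K).a₄ / xR := by
          unfold LegEq at hER
          field_simp
          linear_combination hER
        have hr3 : τ ((yR / xR) ^ 2) = (yR / xR) ^ 2 := by
          rw [hr2, map_add, map_add, map_div₀, hfixx τ hτ, haK τ, hbK τ]
        have hr4 := fix_of_sq A τ (hI τ hτ) h2 hr1 hr3
        have e : yR = yR / xR * xR := by rw [div_mul_cancel₀ _ hxR0]
        rw [e, map_mul, hr4, hfixx τ hτ]
      have hR : (W₀⁄K).Nonsingular xR yR := by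
        rw [hWK.nonsingular_iff]
        refine ⟨hER, Or.inr (mul_ne_zero ?_ hyR0)⟩
        intro h0
        rw [h0, map_zero] at h2v
        exact zero_ne_one h2v
      refine viaLift (Point.some xR yR hR) ?_
        (sub_inE1_of_rel_close v hWK ha' h2v hb' h hR hx hbx hxR hyR)
      intro τ hτ
      rw [Point.map_some]
      simp only [Point.some.injEq]
      exact ⟨hfixx τ hτ, hfixy τ hτ⟩
    · -- `v x = 1`: nonsingular reduction
      have hy : v y ≤ 1 := LocalMult.val_y_le_one v ha'.le hb'.le hx.le hE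
      have hns := LocalMult.nonsing_red v h2v ha' hb' hx hE
      rcases lt_or_eq_of_le hy with hy1 | hy1
      · -- `v y < 1`: `2 • P` lies in the kernel of reduction
        have h2P : InE1 v (Point.some x y h - Point.some x (-y) (hWK.nonsingular_neg h)) := by
          refine sub_inE1_of_same_red v hWK ha'.le hb'.le h (hWK.nonsingular_neg h) hx.le hy ?_ ?_
            hns
          · rw [sub_self, map_zero]; exact zero_lt_one
          · rw [sub_neg_eq_add, ← two_mul, map_mul, h2v, one_mul]; exact hy1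
        rw [← hWK.neg_some h, sub_neg_eq_add, hv] at h2P
        obtain ⟨Q, hQd⟩ : ∃ Q : (W₀⁄K).Point, Q = Point.some x y h := ⟨_, rfl⟩
        rw [← hQd] at h2P hP ⊢
        have key := fixed_via A W₀ hW I hI h2 ha hbA hβ hp2' hpv hp0 hbp σ hσ hH (Q + Q)
          ((inKer_iff_inE1_val A).mpr h2P) ?_ ?_
        · obtain ⟨k, hk⟩ : ∃ k, p + 1 = 2 * k := by
            rcases hp.eq_two_or_odd with h' | h'
            · exact absurd h' hp2
            · exact ⟨(p + 1) / 2, by omega⟩
          have hQk : k • (Q + Q) = Q := by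
            rw [← two_nsmul, ← mul_nsmul, ← hk, add_nsmul, hP, one_nsmul, zero_add]
          rw [← hQk, map_nsmul, key]
        · intro τ hτ
          rw [smul_add, hP, add_zero, map_zero]
        · rw [map_add, add_sub_add_comm, smul_add, smul_sub, ← map_nsmul, hP, map_zero,
            sub_zero, add_zero]
      · -- `v y = 1`: lift the reduction to an `I`-fixed point
        obtain ⟨w, hwfix, hw⟩ := hres x (by rw [← hv]; exact hx.le)
        rw [← hv] at hw
        have hvw : v w = 1 := by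
          have e : w = x - (x - w) := by ring
          rw [e, Valuation.map_sub_eq_of_lt_left v (by rw [hx]; exact hw), hx]
        obtain ⟨y₁, hy₁⟩ := IsAlgClosed.exists_pow_nat_eq
          (w ^ 3 + (W₀⁄K).a₂ * w ^ 2 + (W₀⁄K).a₄ * w) (n := 2) (by norm_num)
        have hE₁ : LegEq (W₀⁄K).a₂ (W₀⁄K).a₄ w y₁ := hy₁
        have hq : v (x ^ 2 + x * w + w ^ 2 + (W₀⁄K).a₂ * (x + w) + (W₀⁄K).a₄) ≤ 1 := by
          refine Valuation.map_add_le v (Valuation.map_add_le v (Valuation.map_add_le v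
            (Valuation.map_add_le v ?_ ?_) ?_) ?_) hb'.le
          · rw [map_pow, hx, one_pow]
          · rw [map_mul, hx, hvw, one_mul]
          · rw [map_pow, hvw, one_pow]
          · rw [map_mul, ha', one_mul]
            exact Valuation.map_add_le v hx.le hvw.le
        have hprod : v ((y - y₁) * (y + y₁)) < 1 := by
          have e : (y - y₁) * (y + y₁) = (x - w) *
              (x ^ 2 + x * w + w ^ 2 + (W₀⁄K).a₂ * (x + w) + (W₀⁄K).a₄) := by
            unfold LegEq at hE hE₁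
            linear_combination hE - hE₁
          rw [e, map_mul]
          calc v (x - w) * v (x ^ 2 + x * w + w ^ 2 + (W₀⁄K).a₂ * (x + w) + (W₀⁄K).a₄)
              ≤ v (x - w) * 1 := mul_le_mul' le_rfl hq
            _ = v (x - w) := mul_one _
            _ < 1 := hw
        have hsign : v (y - y₁) < 1 ∨ v (y + y₁) < 1 := by
          by_contra hcon
          rw [not_or, not_lt, not_lt] at hcon
          have h1 : 1 ≤ v ((y - y₁) * (y + y₁)) := by
            rw [map_mul]; exact one_le_mul_of_one_le_of_one_le hcon.1 hcon.2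
          exact absurd hprod (not_lt.mpr h1)
        obtain ⟨yR, hER, hyR⟩ : ∃ yR, LegEq (W₀⁄K).a₂ (W₀⁄K).a₄ w yR ∧ v (y - yR) < 1 := by
          rcases hsign with h' | h'
          · exact ⟨y₁, hE₁, h'⟩
          · refine ⟨-y₁, ?_, by rwa [sub_neg_eq_add]⟩
            unfold LegEq at hE₁ ⊢
            rw [neg_sq]; exact hE₁
        have hvyR : v yR = 1 := by
          have e : yR = y - (y - yR) := by ring
          rw [e, Valuation.map_sub_eq_of_lt_left v (by rw [hy1]; exact hyR), hy1]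
        have hyR0 : yR ≠ 0 := by
          intro h0
          rw [h0, map_zero] at hvyR
          exact zero_ne_one hvyR
        have hfixy : ∀ τ ∈ I, τ yR = yR := by
          intro τ hτ
          refine fix_of_sq A τ (hI τ hτ) h2 (by rw [← hv]; exact hvyR) ?_
          unfold LegEq at hER
          rw [hER, map_add, map_add, map_mul, map_mul, map_pow, map_pow, hwfix τ hτ, haK τ,
            hbK τ]
        have hR : (W₀⁄K).Nonsingular w yR := by
          rw [hWK.nonsingular_iff]
          refine ⟨hER, Or.inr (mul_ne_zero ?_ hyR0)⟩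
          intro h0
          rw [h0, map_zero] at h2v
          exact zero_ne_one h2v
        refine viaLift (Point.some w yR hR) ?_
          (sub_inE1_of_same_red v hWK ha'.le hb'.le h hR hx.le hy hw hyR hns)
        intro τ hτ
        rw [Point.map_some]
        simp only [Point.some.injEq]
        exact ⟨hwfix τ hτ, hfixy τ hτ⟩
    · -- `1 < v x`: `P` itself is in the kernel of reduction
      refine viaLift 0 hfix0 ?_
      rw [sub_zero]
      exact hx

end Local

end Fermat.Agent.TR.FreyPeu
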