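/-
TR, E-side (E-DEEP), local form: a deep inertia element fixes the `p`-torsion.

Setting of `fixed_of_mult_peu`.  `tors_deep_eq_zero`: a `p`-torsion point `T` of the kernel of
reduction with `v(z(T)) ^ (p - 1) < v(p)` is zero (the `p`-torsion of the formal group is not
deep), via the unit coordinate: `u(T) ^ p ∈ 1 + b z² A` and the binomial expansion.
`fixed_of_mult_deep`: if `σ ∈ I` moves every integral element of the field of the `p`-torsion
by at most `ρ`, `ρ ^ (p - 1) < v(p)`, then `σ` fixes the `p`-torsion.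
-/
import Fermat.Agent.TR.FreyPeu.Lift

set_option autoImplicit false

namespace Fermat.Agent.TR.FreyPeu

open WeierstrassCurve WeierstrassCurve.Affine
open Fermat.Agent.S05 Fermat.Agent.S05.E1

section Val

variable {K : Type*} [Field K] {Γ₀ : Type*} [LinearOrderedCommGroupWithZero Γ₀]
  (v : Valuation K Γ₀)

theorem val_natCast_le_one' (n : ℕ) : v (n : K) ≤ 1 := by
  induction n with
  | zero => simp
  | succ n ih =>
    rw [Nat.cast_succ]
    exact Valuation.map_add_le v ih (le_of_eq v.map_one)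

/-- `v ((1 + δ) ^ p - 1) = v p * v δ` as soon as `v δ ^ (p - 1) < v p`. -/
theorem val_one_add_pow_sub_one {p : ℕ} (hp : p.Prime) {δ : K} (hδ : v δ < 1)
    (hδp : v δ ^ (p - 1) < v (p : K)) : v ((1 + δ) ^ p - 1) = v (p : K) * v δ := by
  by_cases h0 : δ = 0
  · subst h0; simp
  have hδ0 : 0 < v δ := zero_lt_iff.mpr ((Valuation.ne_zero_iff v).mpr h0)
  have key := add_pow_prime_eq hp (1 : K) δ
  obtain ⟨f, hfd⟩ : ∃ f : ℕ → K, f = fun k =>
    (1 : K) ^ (k - 1) * δ ^ (p - k - 1) * ((p.choose k / p : ℕ) : K) := ⟨_, rfl⟩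
  have key' : (1 + δ) ^ p = 1 ^ p + δ ^ p + (p : K) * 1 * δ * ∑ k ∈ Finset.Ioo 0 p, f k := by
    rw [hfd]; exact key
  have hp2 : 2 ≤ p := hp.two_le
  have hmem : p - 1 ∈ Finset.Ioo 0 p := by
    rw [Finset.mem_Ioo]; omega
  have hsplit := Finset.add_sum_erase (Finset.Ioo 0 p) f hmem
  have hf1 : f (p - 1) = 1 := by
    rw [hfd]
    show (1 : K) ^ (p - 1 - 1) * δ ^ (p - (p - 1) - 1) * ((p.choose (p - 1) / p : ℕ) : K) = 1
    have e1 : p - (p - 1) - 1 = 0 := by omega
    have e2 : p.choose (p - 1) / p = 1 := by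
      have hc : p.choose (p - 1) = p := by
        have := Nat.choose_symm (n := p) (k := 1) (by omega)
        rw [Nat.choose_one_right] at this
        exact this
      rw [hc, Nat.div_self hp.pos]
    rw [e1, e2]
    simp
  have hsmall : v (∑ k ∈ (Finset.Ioo 0 p).erase (p - 1), f k) < 1 := by
    refine Valuation.map_sum_lt v one_ne_zero ?_
    intro k hk
    rw [Finset.mem_erase, Finset.mem_Ioo] at hk
    rw [hfd]
    show v ((1 : K) ^ (k - 1) * δ ^ (p - k - 1) * ((p.choose k / p : ℕ) : K)) < 1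
    rw [map_mul, map_mul, one_pow, map_one, one_mul, map_pow]
    have hk1 : p - k - 1 ≠ 0 := by omega
    calc v δ ^ (p - k - 1) * v ((p.choose k / p : ℕ) : K)
        ≤ v δ ^ (p - k - 1) * 1 := mul_le_mul' le_rfl (val_natCast_le_one' v _)
      _ = v δ ^ (p - k - 1) := mul_one _
      _ < 1 := pow_lt_one₀ zero_le hδ hk1
  have hS1 : v (∑ k ∈ Finset.Ioo 0 p, f k) = 1 := by
    rw [← hsplit, hf1]
    exact v.map_one_add_of_lt hsmall
  have e : (1 + δ) ^ p - 1 = (p : K) * δ * (∑ k ∈ Finset.Ioo 0 p, f k) + δ ^ p := by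
    rw [key']; ring
  have h1 : v ((p : K) * δ * (∑ k ∈ Finset.Ioo 0 p, f k)) = v (p : K) * v δ := by
    rw [map_mul, map_mul, hS1, mul_one]
  have h2 : v (δ ^ p) < v ((p : K) * δ * (∑ k ∈ Finset.Ioo 0 p, f k)) := by
    rw [h1, map_pow]
    calc v δ ^ p = v δ ^ (p - 1) * v δ := (pow_sub_one_mul hp.ne_zero (v δ)).symm
      _ < v (p : K) * v δ := mul_lt_mul_of_pos_right hδp hδ0
  rw [e, Valuation.map_add_eq_of_lt_left v h2, h1]

end Val

section Tors

variable {K : Type*} [Field K] [DecidableEq K] {W : Affine K} (A : ValuationSubring K)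

/-- **The `p`-torsion of the kernel of reduction is not deep**: a `p`-torsion point `T` of `E₁`
with `v(z(T)) ^ (p - 1) < v(p)` is zero. -/
theorem tors_deep_eq_zero (h₁ : W.a₁ = 0) (h₃ : W.a₃ = 0) (h₆ : W.a₆ = 0)
    (h₂ : W.a₂ ∈ A) (h₄ : W.a₄ ∈ A) (h2 : A.valuation (2 : K) = 1)
    {β : K} (hβ : β ^ 2 = W.a₂) (hβ1 : A.valuation β = 1)
    {p : ℕ} (hp : p.Prime) (hpv : A.valuation (p : K) < 1)
    (hbp : A.valuation W.a₄ ≤ A.valuation (p : K) ^ p)
    {T : W.Point} (hT : InKer A T) (hpT : p • T = 0)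
    (hdeep : A.valuation (zCoord T) ^ (p - 1) < A.valuation (p : K)) : T = 0 := by
  by_contra hT0
  have hz0 : zCoord T ≠ 0 := fun h => hT0 (eq_zero_of_zCoord_eq_zero A h₁ h₃ h₆ h₂ h₄ hT h)
  have hzlt := zCoord_val_lt_one A h₁ h₃ h₆ h₂ h₄ hT
  have hu := uCoord_units A h₁ h₃ h₆ h₂ h₄ hβ hT
  have hsub := uCoord_sub_one A h₁ h₃ h₆ h₂ h₄ hβ hT
  obtain ⟨c, hc, h1⟩ := u_nsmul A h₁ h₃ h₆ h₂ h₄ hβ hT p
  rw [hpT, uCoord_zero] at h1
  obtain ⟨δ, hδ⟩ : ∃ δ, δ = uCoord β T - 1 := ⟨_, rfl⟩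
  obtain ⟨z, hzd⟩ : ∃ z, z = zCoord T := ⟨_, rfl⟩
  rw [← hzd] at hz0 hzlt hsub h1 hdeep
  rw [← hδ] at hsub
  have hvδ : A.valuation δ = A.valuation z := by
    have e := congrArg A.valuation hsub
    rw [← hzd] at hu
    rw [map_mul, hu.2.1, mul_one, map_mul, map_mul, Valuation.map_neg, h2, hβ1, one_mul,
      one_mul] at e
    exact e
  have hkey := val_one_add_pow_sub_one A.valuation hp (by rw [hvδ]; exact hzlt)
    (by rw [hvδ]; exact hdeep)
  have e : (1 + δ) ^ p - 1 = -(W.a₄ * z ^ 2 * c) := by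
    have e1 : 1 + δ = uCoord β T := by rw [hδ]; ring
    rw [e1]
    linear_combination -h1
  rw [e, Valuation.map_neg, map_mul, map_mul, map_pow, hvδ] at hkey
  have hvz0 : 0 < A.valuation z := zero_lt_iff.mpr ((Valuation.ne_zero_iff _).mpr hz0)
  have hvp0 : 0 < A.valuation (p : K) := lt_of_le_of_lt zero_le hdeep
  have hcv : A.valuation c ≤ 1 := (A.valuation_le_one_iff c).mpr hc
  have hp1 : p - 1 ≠ 0 := by have := hp.two_le; omega
  have hlt : A.valuation W.a₄ * A.valuation z ^ 2 * A.valuation c <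
      A.valuation (p : K) * A.valuation z := by
    have hsm : A.valuation (p : K) ^ (p - 1) * A.valuation z < 1 := by
      calc A.valuation (p : K) ^ (p - 1) * A.valuation z
          ≤ 1 * A.valuation z := mul_le_mul' (pow_le_one₀ zero_le hpv.le) le_rfl
        _ = A.valuation z := one_mul _
        _ < 1 := hzlt
    calc A.valuation W.a₄ * A.valuation z ^ 2 * A.valuation c
        ≤ A.valuation (p : K) ^ p * A.valuation z ^ 2 * 1 :=
          mul_le_mul' (mul_le_mul' hbp le_rfl) hcv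
      _ = (A.valuation (p : K) ^ (p - 1) * A.valuation z) *
            (A.valuation (p : K) * A.valuation z) := by
          rw [← pow_sub_one_mul hp.ne_zero (A.valuation (p : K)), mul_one, sq,
            mul_mul_mul_comm]
      _ < 1 * (A.valuation (p : K) * A.valuation z) :=
          mul_lt_mul_of_pos_right hsm (mul_pos hvp0 hvz0)
      _ = A.valuation (p : K) * A.valuation z := one_mul _
  rw [hkey] at hlt
  exact lt_irrefl _ hlt

end Tors

section Local

variable {F K : Type*} [Field F] [Field K] [Algebra F K] [DecidableEq K] [IsAlgClosed K]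

/-- **The local theorem (E-DEEP)**: multiplicative reduction in residue characteristic `p` with
`p ∣ v(Δ)`: an element `σ` of the inertia group moving every integral element of the field of
the `p`-torsion by at most `ρ`, with `ρ ^ (p - 1) < v(p)`, fixes the `p`-torsion. -/
theorem fixed_of_mult_deep (A : ValuationSubring K) (W₀ : Affine F) (hW : IsLeg W₀)
    (I : Set (K ≃ₐ[F] K))
    (hI : ∀ τ ∈ I, ∀ x : K, A.valuation x ≤ 1 → A.valuation (τ x - x) < 1)
    (hres : ∀ x : K, A.valuation x ≤ 1 →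
      ∃ w : K, (∀ τ ∈ I, τ w = w) ∧ A.valuation (x - w) < 1)
    (h2 : A.valuation (2 : K) = 1) (ha : A.valuation (algebraMap F K W₀.a₂) = 1)
    (hb0 : W₀.a₄ ≠ 0)
    {p : ℕ} (hp : p.Prime) (hp2 : p ≠ 2) (hpv : A.valuation (p : K) < 1)
    {t : F} (ht : W₀.a₄ = t ^ p)
    (htp : A.valuation (algebraMap F K t) ≤ A.valuation (p : K))
    (σ : K ≃ₐ[F] K) (hσ : σ ∈ I) (ρ : A.ValueGroup)
    (hρ : ρ ^ (p - 1) < A.valuation (p : K))
    (hdeep : ∀ c : K, c ∈ A →
      (∀ τ ∈ I, (∀ Q : (W₀⁄K).Point, p • Q = 0 → Point.map (W' := W₀) τ.toAlgHom Q = Q) →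
        τ c = c) → A.valuation (σ c - c) ≤ ρ)
    (P : (W₀⁄K).Point) (hP : p • P = 0) :
    Point.map (W' := W₀) σ.toAlgHom P = P := by
  have hWK : IsLeg (W₀⁄K) := LocalMult.isLeg_baseChange W₀ hW
  have haA : algebraMap F K W₀.a₂ ∈ A := (A.valuation_le_one_iff _).mp ha.le
  have hbp : A.valuation (algebraMap F K W₀.a₄) ≤ A.valuation (p : K) ^ p := by
    rw [ht, map_pow, map_pow]
    exact pow_le_pow_left₀ zero_le htp p
  have hb : A.valuation (algebraMap F K W₀.a₄) < 1 :=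
    lt_of_le_of_lt hbp (pow_lt_one₀ zero_le hpv hp.ne_zero)
  have hbA : algebraMap F K W₀.a₄ ∈ A := (A.valuation_le_one_iff _).mp hb.le
  have h₂ : (W₀⁄K).a₂ ∈ A := haA
  have h₄ : (W₀⁄K).a₄ ∈ A := hbA
  obtain ⟨β, hβ⟩ := IsAlgClosed.exists_pow_nat_eq (algebraMap F K W₀.a₂) (n := 2) (by norm_num)
  have hβ' : β ^ 2 = (W₀⁄K).a₂ := hβ
  have hβ1 : A.valuation β = 1 := by
    have h : A.valuation β ^ 2 = 1 := by rw [← map_pow, hβ, ha]
    exact (pow_eq_one_iff.mp h).resolve_right two_ne_zero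
  obtain ⟨n, R, hn, hR, hSk⟩ := exists_lift A W₀ hW I hI hres h2 ha hb0 hp hp2 hpv ht htp P hP
  obtain ⟨S, hSd⟩ : ∃ S, S = n • P - R := ⟨_, rfl⟩
  rw [← hSd] at hSk
  obtain ⟨X, hXd⟩ : ∃ X, X = Point.map (W' := W₀) σ.toAlgHom P - P := ⟨_, rfl⟩
  have hpX : p • X = 0 := by
    rw [hXd, smul_sub, ← map_nsmul, hP, map_zero, sub_zero]
  have hσS : Point.map (W' := W₀) σ.toAlgHom S = S + n • X := by
    rw [hSd, hXd, map_sub, map_nsmul, hR σ hσ, smul_sub]
    abel
  have hσSk : InKer A (Point.map (W' := W₀) σ.toAlgHom S) :=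
    inKer_map W₀ A σ (map_lt_one_of_spec A σ (hI σ hσ)) hSk
  have hTk : InKer A (n • X) := by
    have e : n • X = Point.map (W' := W₀) σ.toAlgHom S + -S := by rw [hσS]; abel
    rw [e]
    exact inKer_add A hWK.a₁ hWK.a₃ hWK.a₆ h₂ h₄ hσSk (inKer_neg A hSk)
  have hpT : p • (n • X) = 0 := by rw [smul_comm, hpX, smul_zero]
  -- the deep hypothesis at `c = z(S)`
  have hzS := zCoord_val_lt_one A hWK.a₁ hWK.a₃ hWK.a₆ h₂ h₄ hSk
  have hc := hdeep (zCoord S) (mem_of_val_lt_one A hzS) (by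
    intro τ hτ hfix
    rw [← zCoord_map W₀ τ S, hSd, map_sub, map_nsmul, hfix P hP, hR τ hτ])
  obtain ⟨-, c', hc', hadd⟩ := ker_add A hWK.a₁ hWK.a₃ hWK.a₆ h₂ h₄ hSk hTk
  rw [← hσS, zCoord_map] at hadd
  have hzT : A.valuation (zCoord (n • X)) ≤ ρ := by
    have e : σ (zCoord S) - zCoord S = zCoord (n • X) * (1 + zCoord S * c') := by
      linear_combination hadd
    have hu : A.valuation (1 + zCoord S * c') = 1 :=
      val_one_add_small A (val_mul_lt_one_of_mem' A hzS hc')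
    rw [e, map_mul, hu, mul_one] at hc
    exact hc
  have hT0 : n • X = 0 := by
    refine tors_deep_eq_zero A hWK.a₁ hWK.a₃ hWK.a₆ h₂ h₄ h2 hβ' hβ1 hp hpv hbp hTk hpT ?_
    exact lt_of_le_of_lt (pow_le_pow_left₀ zero_le hzT (p - 1)) hρ
  -- conclude `X = 0`
  have hX0 : X = 0 := by
    rcases hn with rfl | rfl
    · rwa [one_nsmul] at hT0
    · obtain ⟨k, hk⟩ : ∃ k, p = 2 * k + 1 := by
        rcases hp.eq_two_or_odd with h' | h'
        · exact absurd h' hp2
        · exact ⟨p / 2, by omega⟩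
      have h3 : (2 * k + 1) • X = k • (2 • X) + X := by
        rw [add_nsmul, one_nsmul, mul_nsmul]
      rw [← hk, hpX, hT0, smul_zero, zero_add] at h3
      exact h3.symm
  rw [hXd] at hX0
  exact sub_eq_zero.mp hX0

end Local

end Fermat.Agent.TR.FreyPeu
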