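/-
TR, E-side (E-PEU): the Frey curve at `p ∣ abc` is PEU RAMIFIÉ at `p`.

For a Frey package `P` with `P.p ∣ a b c`, a valuation subring `A` of `ℚ̄` over `p = P.p`, and
`σ` in the inertia group `I` of `A`: if `σ` fixes every `w ∈ ℚ̄` such that `w ^ p` is a unit
of the inertia field `K0 = ℚ̄^I`, then `σ` acts trivially on the `p`-torsion of the Frey curve
(`frey_peu`).  In other words `K0(E[p]) ⊆ K0(u^(1/p) : u ∈ W0ˣ)`.

Proof: the local theorem `fixed_of_mult_peu` (multiplicative reduction, `a₄ = t ^ p`, `p ∣ t`)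
on the Legendre models of S05, transferred along the change of variables
(`S05.fixed_of_transfer`).
-/
import Fermat.Agent.TR.FreyPeu.Local
import Fermat.Agent.S05.Assemble
import Fermat.Agent.S05.Inertia
import Fermat.Agent.CAR.K0.Basic
import Fermat.Prelude.Def_FLTPrelim_FreyPackage

set_option autoImplicit false

open WeierstrassCurve WeierstrassCurve.Affine WeierstrassCurve.Affine.Point
open FreyPackage

namespace Fermat.Agent.TR.FreyPeu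

open Fermat.Agent.S05

theorem val_intCast_le_of_dvd {K : Type*} [Field K] (A : ValuationSubring K) {q : ℕ} {n : ℤ}
    (hn : (q : ℤ) ∣ n) : A.valuation (n : K) ≤ A.valuation (q : K) := by
  obtain ⟨m, rfl⟩ := hn
  push_cast
  rw [map_mul]
  calc A.valuation (q : K) * A.valuation (m : K) ≤ A.valuation (q : K) * 1 :=
        mul_le_mul' le_rfl (val_intCast_le_one A m)
    _ = A.valuation (q : K) := mul_one _

/-- **(E-PEU)**: the `p`-torsion of the Frey curve at `p ∣ abc` is peu ramifié at `p`: an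
element of the inertia group at `p` which fixes all `p`-th roots of units of the inertia field
acts trivially on it. -/
theorem frey_peu (P : FreyPackage) (hp : (P.p : ℤ) ∣ P.a * P.b * P.c)
    (A : ValuationSubring (AlgebraicClosure ℚ)) (hA : A.LiesOverPrime P.p)
    (σ : AlgebraicClosure ℚ ≃ₐ[ℚ] AlgebraicClosure ℚ) (hσ : σ ∈ A.inertiaSubgroupIn ℚ)
    (hH : ∀ w : AlgebraicClosure ℚ, w ^ P.p ∈ Fermat.Agent.CAR.K0.inertiaField A →
      A.valuation (w ^ P.p) = 1 → σ w = w)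
    (Q : ((P.freyCurve)⁄(AlgebraicClosure ℚ)).Point) (hQ : P.p • Q = 0) :
    Point.map (W' := P.freyCurve) σ.toAlgHom Q = Q := by
  set K := AlgebraicClosure ℚ with hK
  have hq : P.p.Prime := P.pp
  have hqA : A.valuation ((P.p : ℕ) : K) < 1 := by
    have : ((P.p : ℕ) : K) ∈ A.nonunits := hA
    rwa [ValuationSubring.mem_nonunits_iff] at this
  have hqi : Prime (P.p : ℤ) := Nat.prime_iff_prime_int.mp hq
  have hp2 : P.p ≠ 2 := by have := P.hp5; omega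
  have h2 : A.valuation (2 : K) = 1 := by
    have h : ¬ (P.p : ℤ) ∣ (2 : ℤ) := by
      intro h
      have h' : P.p ∣ 2 := by exact_mod_cast h
      exact hp2 ((Nat.prime_dvd_prime_iff_eq hq Nat.prime_two).mp h')
    have := val_intCast_eq_one A hq hqA h
    simpa using this
  have h2K : (2 : K) ≠ 0 := two_ne_zero
  have hp0K : ((P.p : ℕ) : K) ≠ 0 := Nat.cast_ne_zero.mpr P.hp0
  -- the inertia group
  obtain ⟨I, hId⟩ : ∃ I : Set (K ≃ₐ[ℚ] K), I = (A.inertiaSubgroupIn ℚ : Set (K ≃ₐ[ℚ] K)) :=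
    ⟨_, rfl⟩
  have hI : ∀ τ ∈ I, ∀ x : K, A.valuation x ≤ 1 → A.valuation (τ x - x) < 1 := by
    intro τ hτ x hx
    rw [hId] at hτ
    exact inertia_spec A τ hτ x hx
  have hres : ∀ x : K, A.valuation x ≤ 1 →
      ∃ w : K, (∀ τ ∈ I, τ w = w) ∧ A.valuation (x - w) < 1 := by
    intro x hx
    obtain ⟨w, hw, -, hxw⟩ :=
      Fermat.Agent.CAR.K0.exists_mem_inertiaField_valuation_sub_lt_one hq A hA
        ((A.valuation_le_one_iff x).mp hx)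
    refine ⟨w, fun τ hτ => ?_, hxw⟩
    rw [hId] at hτ
    exact (Fermat.Agent.CAR.K0.mem_inertiaField_iff A w).mp hw τ hτ
  have hσI : σ ∈ I := by rw [hId]; exact hσ
  have hH' : ∀ w : K, (∀ τ ∈ I, τ (w ^ P.p) = w ^ P.p) → A.valuation (w ^ P.p) = 1 →
      σ w = w := by
    intro w h1 h2'
    refine hH w ((Fermat.Agent.CAR.K0.mem_inertiaField_iff A _).mpr fun τ hτ => h1 τ ?_) h2'
    rw [hId]; exact hτ
  -- coprimality
  have hab : (P.p : ℤ) ∣ P.a → (P.p : ℤ) ∣ P.b → False := fun h1 h2 =>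
    hqi.not_dvd_one (P.hgcdab ▸ dvd_gcd h1 h2)
  have hac : (P.p : ℤ) ∣ P.a → (P.p : ℤ) ∣ P.c → False := fun h1 h2 =>
    hqi.not_dvd_one (P.hgcdac ▸ dvd_gcd h1 h2)
  have hFLT := P.hFLT
  have hFLTQ : (P.a : ℚ) ^ P.p + (P.b : ℚ) ^ P.p = (P.c : ℚ) ^ P.p := by exact_mod_cast hFLT
  have ha0 : (P.a : ℚ) ≠ 0 := by exact_mod_cast P.ha0
  have hb0 : (P.b : ℚ) ≠ 0 := by exact_mod_cast P.hb0
  have hc0 : (P.c : ℚ) ≠ 0 := by exact_mod_cast P.hc0
  have hE₁ : P.freyCurve.a₁ = 1 := rfl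
  have hE₂ : P.freyCurve.a₂ = ((P.b : ℚ) ^ P.p - 1 - (P.a : ℚ) ^ P.p) / 4 := rfl
  have hE₃ : P.freyCurve.a₃ = 0 := rfl
  have hE₄ : P.freyCurve.a₄ = -((P.a : ℚ) ^ P.p) * ((P.b : ℚ) ^ P.p) / 16 := rfl
  have hE₆ : P.freyCurve.a₆ = 0 := rfl
  by_cases hc : (P.p : ℤ) ∣ P.c
  · -- `p ∣ c`: model `Y² = X (X + a^p) (X + c^p)`
    have hna : ¬ (P.p : ℤ) ∣ P.a := fun h => hac h hc
    let W₀ : Affine ℚ := ⟨0, (P.a : ℚ) ^ P.p + (P.c : ℚ) ^ P.p, 0,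
      (P.a : ℚ) ^ P.p * (P.c : ℚ) ^ P.p, 0⟩
    have hW : IsLeg W₀ := ⟨rfl, rfl, rfl⟩
    have e₂ : algebraMap ℚ K W₀.a₂ = ((P.a ^ P.p + P.c ^ P.p : ℤ) : K) := by
      have : W₀.a₂ = ((P.a ^ P.p + P.c ^ P.p : ℤ) : ℚ) := by
        show (P.a : ℚ) ^ P.p + (P.c : ℚ) ^ P.p = _
        push_cast; ring
      rw [this, map_intCast]
    have ha : A.valuation (algebraMap ℚ K W₀.a₂) = 1 := by
      rw [e₂]
      apply val_intCast_eq_one A hq hqA
      intro h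
      have h1 : (P.p : ℤ) ∣ P.c ^ P.p := dvd_pow hc P.hp0
      have h2 : (P.p : ℤ) ∣ P.a ^ P.p := (dvd_add_left h1).mp h
      exact hna (hqi.dvd_of_dvd_pow h2)
    have hb0' : W₀.a₄ ≠ 0 := mul_ne_zero (pow_ne_zero _ ha0) (pow_ne_zero _ hc0)
    have ht : W₀.a₄ = ((P.a : ℚ) * (P.c : ℚ)) ^ P.p := (mul_pow _ _ _).symm
    have htp : A.valuation (algebraMap ℚ K ((P.a : ℚ) * (P.c : ℚ))) ≤
        A.valuation ((P.p : ℕ) : K) := by
      have e : algebraMap ℚ K ((P.a : ℚ) * (P.c : ℚ)) = ((P.a * P.c : ℤ) : K) := by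
        have : (P.a : ℚ) * (P.c : ℚ) = ((P.a * P.c : ℤ) : ℚ) := by push_cast; ring
        rw [this, map_intCast]
      rw [e]
      exact val_intCast_le_of_dvd A (Dvd.dvd.mul_left hc _)
    refine fixed_of_transfer P.freyCurve W₀ (-((P.a : ℚ) ^ P.p)) hE₁ hE₃ hE₆ hW ?_ ?_ ?_ h2K σ P.p
      (fun R hR => fixed_of_mult_peu A W₀ hW I hI hres h2 ha hb0' hq hp2 hqA hp0K ht htp σ hσI
        hH' R hR) Q hQ
    · show (P.a : ℚ) ^ P.p + (P.c : ℚ) ^ P.p = _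
      rw [hE₂, ← hFLTQ]; ring
    · show (P.a : ℚ) ^ P.p * (P.c : ℚ) ^ P.p = _
      rw [hE₂, hE₄, ← hFLTQ]; ring
    · rw [hE₂, hE₄]; ring
  · -- `p ∣ a b`: model `Y² = X (X - a^p) (X + b^p)`
    have hab' : (P.p : ℤ) ∣ P.a * P.b := (hqi.dvd_or_dvd hp).resolve_right hc
    let W₀ : Affine ℚ := ⟨0, (P.b : ℚ) ^ P.p - (P.a : ℚ) ^ P.p, 0,
      -((P.a : ℚ) ^ P.p * (P.b : ℚ) ^ P.p), 0⟩
    have hW : IsLeg W₀ := ⟨rfl, rfl, rfl⟩
    have e₂ : algebraMap ℚ K W₀.a₂ = ((P.b ^ P.p - P.a ^ P.p : ℤ) : K) := by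
      have : W₀.a₂ = ((P.b ^ P.p - P.a ^ P.p : ℤ) : ℚ) := by
        show (P.b : ℚ) ^ P.p - (P.a : ℚ) ^ P.p = _
        push_cast; ring
      rw [this, map_intCast]
    have hT₂ : W₀.a₂ = 4 * P.freyCurve.a₂ + 1 - 3 * 0 := by
      show (P.b : ℚ) ^ P.p - (P.a : ℚ) ^ P.p = _
      rw [hE₂]; ring
    have hT₄ : W₀.a₄ = 16 * P.freyCurve.a₄ - 2 * 0 * (4 * P.freyCurve.a₂ + 1) + 3 * 0 ^ 2 := by
      show -((P.a : ℚ) ^ P.p * (P.b : ℚ) ^ P.p) = _
      rw [hE₂, hE₄]; ring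
    have hT₆ : (0 : ℚ) ^ 3 - (4 * P.freyCurve.a₂ + 1) * 0 ^ 2 + 16 * P.freyCurve.a₄ * 0 = 0 := by
      ring
    have ha : A.valuation (algebraMap ℚ K W₀.a₂) = 1 := by
      rw [e₂]
      apply val_intCast_eq_one A hq hqA
      intro h
      rcases hqi.dvd_or_dvd hab' with h1 | h1
      · have h2 : (P.p : ℤ) ∣ P.a ^ P.p := dvd_pow h1 P.hp0
        have h3 : (P.p : ℤ) ∣ P.b ^ P.p := (dvd_sub_left h2).mp h
        exact hab h1 (hqi.dvd_of_dvd_pow h3)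
      · have h2 : (P.p : ℤ) ∣ P.b ^ P.p := dvd_pow h1 P.hp0
        have h3 : (P.p : ℤ) ∣ P.a ^ P.p := (dvd_sub_right h2).mp h
        exact hab (hqi.dvd_of_dvd_pow h3) h1
    have hb0' : W₀.a₄ ≠ 0 :=
      neg_ne_zero.mpr (mul_ne_zero (pow_ne_zero _ ha0) (pow_ne_zero _ hb0))
    have ht : W₀.a₄ = (-((P.a : ℚ) * (P.b : ℚ))) ^ P.p := by
      show -((P.a : ℚ) ^ P.p * (P.b : ℚ) ^ P.p) = _
      rw [P.hp_odd.neg_pow, mul_pow]
    have htp : A.valuation (algebraMap ℚ K (-((P.a : ℚ) * (P.b : ℚ)))) ≤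
        A.valuation ((P.p : ℕ) : K) := by
      have e : algebraMap ℚ K (-((P.a : ℚ) * (P.b : ℚ))) = ((-(P.a * P.b) : ℤ) : K) := by
        have : -((P.a : ℚ) * (P.b : ℚ)) = ((-(P.a * P.b) : ℤ) : ℚ) := by push_cast; ring
        rw [this, map_intCast]
      rw [e]
      exact val_intCast_le_of_dvd A ((dvd_neg).mpr hab')
    exact fixed_of_transfer P.freyCurve W₀ 0 hE₁ hE₃ hE₆ hW hT₂ hT₄ hT₆ h2K σ P.p
      (fun R hR => fixed_of_mult_peu A W₀ hW I hI hres h2 ha hb0' hq hp2 hqA hp0K ht htp σ hσI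
        hH' R hR) Q hQ

end Fermat.Agent.TR.FreyPeu
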