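/-
TR, E-side (E-DEEP): a deep inertia element fixes the `p`-torsion of the Frey curve at `p ∣ abc`.

For a Frey package `P` with `P.p ∣ a b c`, a valuation subring `A` of `ℚ̄` over `p = P.p`, `σ` in
the inertia group `I` of `A` and `ρ` with `ρ ^ (p - 1) < v(p)`: if `v(σ c - c) ≤ ρ` for every
`c ∈ A` fixed by the stabiliser of `E[p]` in `I` (i.e. every integral element of
`K0(E[p])`), then `σ` acts trivially on `E[p]` (`frey_deep`).
-/
import Fermat.Agent.TR.FreyPeu.Deep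
import Fermat.Agent.S05.FreyTransfer
import Fermat.Agent.S05.Assemble
import Fermat.Agent.S05.Inertia
import Fermat.Agent.CAR.K0.Basic
import Fermat.Prelude.Def_FLTPrelim_FreyPackage

set_option autoImplicit false

open WeierstrassCurve WeierstrassCurve.Affine WeierstrassCurve.Affine.Point
open FreyPackage

namespace Fermat.Agent.TR.FreyPeu

open Fermat.Agent.S05 Fermat.Agent.S05.Transfer

theorem val_intCast_le_of_dvd' {K : Type*} [Field K] (A : ValuationSubring K) {q : ℕ} {n : ℤ}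
    (hn : (q : ℤ) ∣ n) : A.valuation (n : K) ≤ A.valuation (q : K) := by
  obtain ⟨m, rfl⟩ := hn
  push_cast
  rw [map_mul]
  calc A.valuation (q : K) * A.valuation (m : K) ≤ A.valuation (q : K) * 1 :=
        mul_le_mul' le_rfl (val_intCast_le_one A m)
    _ = A.valuation (q : K) := mul_one _

section Transfer

variable {K : Type*} [Field K] [Algebra ℚ K] [DecidableEq K] {W₁ W₂ : WeierstrassCurve ℚ}

/-- An automorphism fixes the `n`-torsion of a curve iff it fixes the `n`-torsion of a rational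
change of variables of it. -/
theorem fixes_torsion_iff (C : VariableChange ℚ) (h : C • W₂ = W₁) (n : ℕ) (τ : K ≃ₐ[ℚ] K) :
    (∀ Q : (W₁⁄K).Point, n • Q = 0 → Point.map (W' := W₁) τ.toAlgHom Q = Q) ↔
      (∀ Q : (W₂⁄K).Point, n • Q = 0 → Point.map (W' := W₂) τ.toAlgHom Q = Q) := by
  have hsmul : ∀ Q : (W₁⁄K).Point, ratEquiv (K := K) C h (Point.map (W' := W₁) τ.toAlgHom Q) =
      Point.map (W' := W₂) τ.toAlgHom (ratEquiv (K := K) C h Q) := fun Q => ratEquiv_smul C h τ Q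
  constructor
  · intro hfix Q hQ
    have h1 : n • (ratEquiv (K := K) C h).symm Q = 0 := by
      rw [← map_nsmul, hQ, _root_.map_zero]
    have h2 := hfix _ h1
    have h3 := congrArg (ratEquiv (K := K) C h) h2
    rw [hsmul, AddEquiv.apply_symm_apply] at h3
    exact h3
  · intro hfix Q hQ
    have h1 : n • ratEquiv (K := K) C h Q = 0 := by
      rw [← map_nsmul, hQ, _root_.map_zero]
    have h2 := hfix _ h1
    rw [← hsmul] at h2
    exact (ratEquiv (K := K) C h).injective h2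

end Transfer

/-- **(E-DEEP)**: for `p ∣ abc`, an element `σ` of the inertia group at `p` which moves every
integral element of `K0(E[p])` by at most `ρ`, `ρ ^ (p - 1) < v(p)`, acts trivially on the
`p`-torsion of the Frey curve. -/
theorem frey_deep (P : FreyPackage) (hp : (P.p : ℤ) ∣ P.a * P.b * P.c)
    (A : ValuationSubring (AlgebraicClosure ℚ)) (hA : A.LiesOverPrime P.p)
    (σ : AlgebraicClosure ℚ ≃ₐ[ℚ] AlgebraicClosure ℚ) (hσ : σ ∈ A.inertiaSubgroupIn ℚ)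
    (ρ : A.ValueGroup) (hρ : ρ ^ (P.p - 1) < A.valuation ((P.p : ℕ) : AlgebraicClosure ℚ))
    (hdeep : ∀ c : AlgebraicClosure ℚ, c ∈ A →
      (∀ τ ∈ A.inertiaSubgroupIn ℚ,
        (∀ Q : ((P.freyCurve)⁄(AlgebraicClosure ℚ)).Point, P.p • Q = 0 →
          Point.map (W' := P.freyCurve) τ.toAlgHom Q = Q) → τ c = c) →
      A.valuation (σ c - c) ≤ ρ)
    (Q : ((P.freyCurve)⁄(AlgebraicClosure ℚ)).Point) (hQ : P.p • Q = 0) :
    Point.map (W' := P.freyCurve) σ.toAlgHom Q = Q := by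
  set K := AlgebraicClosure ℚ with hK
  have hq : P.p.Prime := P.pp
  have hqA : A.valuation ((P.p : ℕ) : K) < 1 := by
    have : ((P.p : ℕ) : K) ∈ A.nonunits := hA
    rwa [ValuationSubring.mem_nonunits_iff] at this
  have hqi : Prime (P.p : ℤ) := Nat.prime_iff_prime_int.mp hq
  have hp2 : P.p ≠ 2 := by have := P.hp5; omega
  have h2 : A.valuation (2 : K) = 1 := by
    have h : ¬ (P.p : ℤ) ∣ (2 : ℤ) := by
      intro h
      have h' : P.p ∣ 2 := by exact_mod_cast h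
      exact hp2 ((Nat.prime_dvd_prime_iff_eq hq Nat.prime_two).mp h')
    have := val_intCast_eq_one A hq hqA h
    simpa using this
  -- the inertia group
  obtain ⟨I, hId⟩ : ∃ I : Set (K ≃ₐ[ℚ] K), I = (A.inertiaSubgroupIn ℚ : Set (K ≃ₐ[ℚ] K)) :=
    ⟨_, rfl⟩
  have hI : ∀ τ ∈ I, ∀ x : K, A.valuation x ≤ 1 → A.valuation (τ x - x) < 1 := by
    intro τ hτ x hx
    rw [hId] at hτ
    exact inertia_spec A τ hτ x hx
  have hres : ∀ x : K, A.valuation x ≤ 1 →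
      ∃ w : K, (∀ τ ∈ I, τ w = w) ∧ A.valuation (x - w) < 1 := by
    intro x hx
    obtain ⟨w, hw, -, hxw⟩ :=
      Fermat.Agent.CAR.K0.exists_mem_inertiaField_valuation_sub_lt_one hq A hA
        ((A.valuation_le_one_iff x).mp hx)
    refine ⟨w, fun τ hτ => ?_, hxw⟩
    rw [hId] at hτ
    exact (Fermat.Agent.CAR.K0.mem_inertiaField_iff A w).mp hw τ hτ
  have hσI : σ ∈ I := by rw [hId]; exact hσ
  -- the deep hypothesis on a model
  have hdeep' : ∀ (W₀ : WeierstrassCurve ℚ) (C : VariableChange ℚ) (_ : C • P.freyCurve = W₀),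
      ∀ c : K, c ∈ A →
        (∀ τ ∈ I, (∀ Q : (W₀⁄K).Point, P.p • Q = 0 →
          Point.map (W' := W₀) τ.toAlgHom Q = Q) → τ c = c) → A.valuation (σ c - c) ≤ ρ := by
    intro W₀ C hC c hc hfix
    refine hdeep c hc fun τ hτ hτfix => hfix τ (by rw [hId]; exact hτ) ?_
    exact (fixes_torsion_iff C hC P.p τ).mpr hτfix
  -- coprimality
  have hab : (P.p : ℤ) ∣ P.a → (P.p : ℤ) ∣ P.b → False := fun h1 h2 =>
    hqi.not_dvd_one (P.hgcdab ▸ dvd_gcd h1 h2)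
  have hac : (P.p : ℤ) ∣ P.a → (P.p : ℤ) ∣ P.c → False := fun h1 h2 =>
    hqi.not_dvd_one (P.hgcdac ▸ dvd_gcd h1 h2)
  have ha0 : (P.a : ℚ) ≠ 0 := by exact_mod_cast P.ha0
  have hb0 : (P.b : ℚ) ≠ 0 := by exact_mod_cast P.hb0
  have hc0 : (P.c : ℚ) ≠ 0 := by exact_mod_cast P.hc0
  by_cases hc : (P.p : ℤ) ∣ P.c
  · -- `p ∣ c`: model `Y² = X (X + a^p) (X + c^p)`
    have hna : ¬ (P.p : ℤ) ∣ P.a := fun h => hac h hc
    obtain ⟨W₀, hW₀⟩ : ∃ W₀ : WeierstrassCurve ℚ, W₀ = ⟨0, (P.a : ℚ) ^ P.p + (P.c : ℚ) ^ P.p, 0,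
      (P.a : ℚ) ^ P.p * (P.c : ℚ) ^ P.p, 0⟩ := ⟨_, rfl⟩
    have hC : vcShift ((P.a : ℚ) ^ P.p) • P.freyCurve = W₀ := by rw [hW₀]; exact frey_model_c P
    have hW : IsLeg W₀ := by rw [hW₀]; exact ⟨rfl, rfl, rfl⟩
    have hW₂ : W₀.a₂ = (P.a : ℚ) ^ P.p + (P.c : ℚ) ^ P.p := by rw [hW₀]
    have hW₄ : W₀.a₄ = (P.a : ℚ) ^ P.p * (P.c : ℚ) ^ P.p := by rw [hW₀]
    have e₂ : algebraMap ℚ K W₀.a₂ = ((P.a ^ P.p + P.c ^ P.p : ℤ) : K) := by
      have : W₀.a₂ = ((P.a ^ P.p + P.c ^ P.p : ℤ) : ℚ) := by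
        rw [hW₂]; push_cast; ring
      rw [this, map_intCast]
    have ha : A.valuation (algebraMap ℚ K W₀.a₂) = 1 := by
      rw [e₂]
      apply val_intCast_eq_one A hq hqA
      intro h
      have h1 : (P.p : ℤ) ∣ P.c ^ P.p := dvd_pow hc P.hp0
      have h2 : (P.p : ℤ) ∣ P.a ^ P.p := (dvd_add_left h1).mp h
      exact hna (hqi.dvd_of_dvd_pow h2)
    have hb0' : W₀.a₄ ≠ 0 := by
      rw [hW₄]; exact mul_ne_zero (pow_ne_zero _ ha0) (pow_ne_zero _ hc0)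
    have ht : W₀.a₄ = ((P.a : ℚ) * (P.c : ℚ)) ^ P.p := by rw [hW₄, mul_pow]
    have htp : A.valuation (algebraMap ℚ K ((P.a : ℚ) * (P.c : ℚ))) ≤
        A.valuation ((P.p : ℕ) : K) := by
      have e : algebraMap ℚ K ((P.a : ℚ) * (P.c : ℚ)) = ((P.a * P.c : ℤ) : K) := by
        have : (P.a : ℚ) * (P.c : ℚ) = ((P.a * P.c : ℤ) : ℚ) := by push_cast; ring
        rw [this, map_intCast]
      rw [e]
      exact val_intCast_le_of_dvd' A (Dvd.dvd.mul_left hc _)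
    exact (fixes_torsion_iff _ hC P.p σ).mp
      (fun R hR => fixed_of_mult_deep A W₀ hW I hI hres h2 ha hb0' hq hp2 hqA ht htp σ hσI ρ hρ
        (hdeep' W₀ _ hC) R hR) Q hQ
  · -- `p ∣ a b`: model `Y² = X (X - a^p) (X + b^p)`
    have hab' : (P.p : ℤ) ∣ P.a * P.b := (hqi.dvd_or_dvd hp).resolve_right hc
    obtain ⟨W₀, hW₀⟩ : ∃ W₀ : WeierstrassCurve ℚ, W₀ = ⟨0, (P.b : ℚ) ^ P.p - (P.a : ℚ) ^ P.p, 0,
      -((P.a : ℚ) ^ P.p * (P.b : ℚ) ^ P.p), 0⟩ := ⟨_, rfl⟩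
    have hC : vcShift 0 • P.freyCurve = W₀ := by rw [hW₀]; exact frey_model₀ P
    have hW : IsLeg W₀ := by rw [hW₀]; exact ⟨rfl, rfl, rfl⟩
    have hW₂ : W₀.a₂ = (P.b : ℚ) ^ P.p - (P.a : ℚ) ^ P.p := by rw [hW₀]
    have hW₄ : W₀.a₄ = -((P.a : ℚ) ^ P.p * (P.b : ℚ) ^ P.p) := by rw [hW₀]
    have e₂ : algebraMap ℚ K W₀.a₂ = ((P.b ^ P.p - P.a ^ P.p : ℤ) : K) := by
      have : W₀.a₂ = ((P.b ^ P.p - P.a ^ P.p : ℤ) : ℚ) := by
        rw [hW₂]; push_cast; ring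
      rw [this, map_intCast]
    have ha : A.valuation (algebraMap ℚ K W₀.a₂) = 1 := by
      rw [e₂]
      apply val_intCast_eq_one A hq hqA
      intro h
      rcases hqi.dvd_or_dvd hab' with h1 | h1
      · have h2 : (P.p : ℤ) ∣ P.a ^ P.p := dvd_pow h1 P.hp0
        have h3 : (P.p : ℤ) ∣ P.b ^ P.p := (dvd_sub_left h2).mp h
        exact hab h1 (hqi.dvd_of_dvd_pow h3)
      · have h2 : (P.p : ℤ) ∣ P.b ^ P.p := dvd_pow h1 P.hp0
        have h3 : (P.p : ℤ) ∣ P.a ^ P.p := (dvd_sub_right h2).mp h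
        exact hab (hqi.dvd_of_dvd_pow h3) h1
    have hb0' : W₀.a₄ ≠ 0 := by
      rw [hW₄]; exact neg_ne_zero.mpr (mul_ne_zero (pow_ne_zero _ ha0) (pow_ne_zero _ hb0))
    have ht : W₀.a₄ = (-((P.a : ℚ) * (P.b : ℚ))) ^ P.p := by
      rw [hW₄, P.hp_odd.neg_pow, mul_pow]
    have htp : A.valuation (algebraMap ℚ K (-((P.a : ℚ) * (P.b : ℚ)))) ≤
        A.valuation ((P.p : ℕ) : K) := by
      have e : algebraMap ℚ K (-((P.a : ℚ) * (P.b : ℚ))) = ((-(P.a * P.b) : ℤ) : K) := by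
        have : -((P.a : ℚ) * (P.b : ℚ)) = ((-(P.a * P.b) : ℤ) : ℚ) := by push_cast; ring
        rw [this, map_intCast]
      rw [e]
      exact val_intCast_le_of_dvd' A ((dvd_neg).mpr hab')
    exact (fixes_torsion_iff _ hC P.p σ).mp
      (fun R hR => fixed_of_mult_deep A W₀ hW I hI hres h2 ha hb0' hq hp2 hqA ht htp σ hσI ρ hρ
        (hdeep' W₀ _ hC) R hR) Q hQ

end Fermat.Agent.TR.FreyPeu
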